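import Fermat.Agent.L.Ihara.Interfaces

/-!
# Cluster L / IHARA / (D'): interface between Step 1 (Hecke trick, helper8) and
Steps 2+3 (evaluation at `b = M`, Dirichlet; helper45)

`HeckeTrick q p M` is the output of Step 1 of helper41's proof of (D'): for a character `Φ` of
`G(M)` killing `E(M)` and a prime `l ∤ M q`, `l ≡ 2 mod p²`, there is a character `Ψ` of `G(M)`
killing `E(M)` with `Φ (D x D⁻¹) = Ψ x` for all `x ∈ G(M)` with `l ∣ x₁₀`, `D = diag(l, 1)`
(so `D x D⁻¹ = [a, l b; c / l, d]`).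
-/

set_option autoImplicit false

noncomputable section

namespace Fermat.Agent.LIhS

open Fermat.Agent.LIh Matrix
open scoped MatrixGroups

/-- **Step 1 of (D')** (Hecke trick): `Φ ∘ (conjugation by diag(l, 1))` agrees on
`K = {x ∈ G(M) : l ∣ x₁₀}` with a character `Ψ` of `G(M)` killing `E(M)`.
The pair `(x, y)` with `y = D x D⁻¹` is described entrywise. -/
def HeckeTrick (q p M : ℕ) : Prop :=
  q.Prime → p.Prime → p ≠ 2 → q ≠ p → 0 < M → Nat.Coprime M q →
  ∀ Φ : Additive (congr q M) →+ ZMod p,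
    (∀ x : congr q M, (x : Gq q) ∈ elem q M → Φ (Additive.ofMul x) = 0) →
    ∀ l : ℕ, l.Prime → ¬ l ∣ M → l ≠ q → l ≡ 2 [MOD p ^ 2] →
    ∃ Ψ : Additive (congr q M) →+ ZMod p,
      (∀ x : congr q M, (x : Gq q) ∈ elem q M → Ψ (Additive.ofMul x) = 0) ∧
      ∀ x y : congr q M,
        (y : Gq q) 0 0 = (x : Gq q) 0 0 → (y : Gq q) 1 1 = (x : Gq q) 1 1 →
        (y : Gq q) 0 1 = (l : Zq q) * (x : Gq q) 0 1 →
        (x : Gq q) 1 0 = (l : Zq q) * (y : Gq q) 1 0 →
        Φ (Additive.ofMul y) = Ψ (Additive.ofMul x)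

end Fermat.Agent.LIhS
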