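/-
Cluster L (S41, level raising), WP IHARA, step (D') = `LIh.CSPStatement`.  Owner: helper8.

Interface propositions for the three pieces of (D'):
* (D'-U, helper64) `LemmaUStatement q M`: unipotent elements of `G(M)` lie in `E(M)`;
* (D'-E, helper8)  `ClaimEStatement q p M ℓ`: extension of an invariant character of `G(M ℓ)`
  killing unipotents to a character of `G(M)` killing unipotents;
* Step 1 (Hecke trick, helper8): `LIhS.HeckeTrick q p M` (interface of helper45,
  `L/IharaD/HeckeIface.lean`) from `CentralStatement`, `LemmaUStatement`, `ClaimEStatement`;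
* (D'-S, helper45) Steps 2-3 (evaluation at `b = M`, Dirichlet): `HeckeTrick ⇒ CSPStatement`.
-/
import Fermat.Agent.L.Ihara.Interfaces
import Fermat.Agent.L.IharaD.HeckeIface

set_option autoImplicit false

noncomputable section

namespace Fermat.Agent.LIhD

open Matrix Fermat.Agent.LIh
open scoped MatrixGroups

/-- Unipotent elements of `SL₂(ℤ[1/q])`: trace `2`. -/
def IsUnip {q : ℕ} (x : Gq q) : Prop := (x : Matrix (Fin 2) (Fin 2) (Zq q)).trace = 2

/-- The character `c` of the subgroup `H` kills the unipotent elements of `H`. -/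
def KillsUnip {q p : ℕ} (H : Subgroup (Gq q)) (c : Additive H →+ ZMod p) : Prop :=
  ∀ x : H, IsUnip (x : Gq q) → c (Additive.ofMul x) = 0

/-- The character `c` of the normal subgroup `H` is invariant under conjugation by
`SL₂(ℤ[1/q])`. -/
def IsInvariant {q p : ℕ} (H : Subgroup (Gq q)) [hH : H.Normal] (c : Additive H →+ ZMod p) :
    Prop :=
  ∀ (g : Gq q) (x : H), c (Additive.ofMul ⟨g * x * g⁻¹, hH.conj_mem x x.2 g⟩) =
    c (Additive.ofMul x)

/-- **(D'-U)** Lemma U: the unipotent elements of `G(M)` lie in `E(M)`. -/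
def LemmaUStatement (q M : ℕ) : Prop :=
  q.Prime → 0 < M → Nat.Coprime M q →
  ∀ x : Gq q, x ∈ congr q M → IsUnip x → x ∈ elem q M

/-- The auxiliary primes `ℓ` of the Hecke trick: `p ∤ ℓ (ℓ - 1) (ℓ + 1)` (possible iff `p ≥ 5`),
or `p = 3` and `ℓ ≡ 2 mod 9`. -/
def GoodL (p ℓ : ℕ) : Prop := ¬ p ∣ ℓ * (ℓ - 1) * (ℓ + 1) ∨ (p = 3 ∧ ℓ % 9 = 2)

theorem congr_mono (q : ℕ) {M M' : ℕ} (h : M ∣ M') : congr q M' ≤ congr q M := by
  intro x hx
  rw [mem_congr] at hx ⊢
  intro i j
  obtain ⟨k, rfl⟩ := h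
  refine Dvd.dvd.trans ?_ (hx i j)
  exact ⟨(k : Zq q), by push_cast; ring⟩

theorem congr_mul_le (q M ℓ : ℕ) : congr q (M * ℓ) ≤ congr q M :=
  congr_mono q (Dvd.intro _ rfl)

/-- **(D'-E)** Claim E: an invariant character of `G(M ℓ)` killing the unipotents extends to a
character of `G(M)` killing the unipotents. -/
def ClaimEStatement (q p M ℓ : ℕ) : Prop :=
  q.Prime → p.Prime → p ≠ 2 → q ≠ p → 0 < M → Nat.Coprime M q →
  ℓ.Prime → ¬ ℓ ∣ M * q → GoodL p ℓ →
  ∀ Ψ : Additive (congr q (M * ℓ)) →+ ZMod p,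
    IsInvariant (congr q (M * ℓ)) Ψ → KillsUnip (congr q (M * ℓ)) Ψ →
    ∃ Ψ' : Additive (congr q M) →+ ZMod p, KillsUnip (congr q M) Ψ' ∧
      ∀ (x : Gq q) (hx : x ∈ congr q (M * ℓ)),
        Ψ' (Additive.ofMul ⟨x, congr_mul_le q M ℓ hx⟩) = Ψ (Additive.ofMul ⟨x, hx⟩)

/-- **Step 1 of (D')** (helper8): the Hecke trick from (B), Lemma U and Claim E. -/
def HeckeTrickFromInputs (q p M : ℕ) : Prop :=
  (∀ M', CentralStatement q p M') → (∀ M', LemmaUStatement q M') →
    (∀ M' ℓ, ClaimEStatement q p M' ℓ) → Fermat.Agent.LIhS.HeckeTrick q p M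

end Fermat.Agent.LIhD
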