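/-
Cluster L (S41, level raising), WP IHARA, step (D').  Owner: helper8.

Reduction modulo `ℓ` on `ℤ[1/q]` (`ℓ` prime to `q`): the ring homomorphism
`redL q ℓ : ℤ[1/q] → ℤ/ℓ`, its kernel `(ℓ)`, and the induced reduction
`redSL q ℓ : SL₂(ℤ[1/q]) → SL₂(ℤ/ℓ)` with kernel `G(ℓ)`.
-/
import Fermat.Agent.L.IharaD.Interfaces

set_option autoImplicit false

noncomputable section

namespace Fermat.Agent.LIhD

open Matrix Fermat.Agent.LIh
open scoped MatrixGroups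

variable {q ℓ : ℕ}

theorem isUnit_natCast_zmod (h : Nat.Coprime q ℓ) :
    IsUnit ((Int.castRingHom (ZMod ℓ)) (q : ℤ)) := by
  have h1 : (Int.castRingHom (ZMod ℓ)) (q : ℤ) = ((q : ℕ) : ZMod ℓ) := by simp
  rw [h1]
  exact (ZMod.isUnit_iff_coprime q ℓ).mpr h

/-- Reduction modulo `ℓ` on `ℤ[1/q]`, for `ℓ` prime to `q`. -/
def redL (q ℓ : ℕ) (h : Nat.Coprime q ℓ) : Zq q →+* ZMod ℓ :=
  IsLocalization.Away.lift (q : ℤ) (isUnit_natCast_zmod h)

theorem redL_intCast (h : Nat.Coprime q ℓ) (n : ℤ) : redL q ℓ h (n : Zq q) = (n : ZMod ℓ) := by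
  have h1 := IsLocalization.Away.lift_eq (S := Zq q) (q : ℤ) (isUnit_natCast_zmod h) n
  simpa [redL] using h1

theorem redL_natCast (h : Nat.Coprime q ℓ) (n : ℕ) : redL q ℓ h (n : Zq q) = (n : ZMod ℓ) := by
  have := redL_intCast h (n : ℤ)
  simpa using this

/-- Every element of `ℤ[1/q]` is `n / q ^ k`. -/
theorem exists_mul_pow_eq_intCast (q : ℕ) (x : Zq q) :
    ∃ (k : ℕ) (n : ℤ), x * (q : Zq q) ^ k = (n : Zq q) := by
  obtain ⟨k, n, h⟩ := IsLocalization.Away.surj (S := Zq q) (q : ℤ) x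
  refine ⟨k, n, ?_⟩
  simpa using h

theorem isUnit_q (q : ℕ) : IsUnit (q : Zq q) :=
  IsUnit.of_mul_eq_one (invq q) (q_mul_invq q)

/-- The kernel of the reduction modulo `ℓ` is `(ℓ)`. -/
theorem redL_eq_zero_iff (h : Nat.Coprime q ℓ) (x : Zq q) :
    redL q ℓ h x = 0 ↔ (ℓ : Zq q) ∣ x := by
  constructor
  · intro hx
    obtain ⟨k, n, hn⟩ := exists_mul_pow_eq_intCast q x
    have h1 : redL q ℓ h (x * (q : Zq q) ^ k) = 0 := by rw [map_mul, hx, zero_mul]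
    rw [hn, redL_intCast, ZMod.intCast_zmod_eq_zero_iff_dvd] at h1
    obtain ⟨m, hm⟩ := h1
    have h2 : (ℓ : Zq q) ∣ x * (q : Zq q) ^ k := by
      rw [hn, hm]
      exact ⟨(m : Zq q), by push_cast; ring⟩
    exact ((isUnit_q q).pow k).dvd_mul_right.mp h2
  · rintro ⟨y, rfl⟩
    rw [map_mul, redL_natCast, ZMod.natCast_self, zero_mul]

/-- Coprime integers stay coprime in `ℤ[1/q]`. -/
theorem isCoprime_natCast_Zq (q : ℕ) {M ℓ : ℕ} (h : Nat.Coprime M ℓ) :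
    IsCoprime (M : Zq q) (ℓ : Zq q) := by
  have h1 : IsCoprime (M : ℤ) (ℓ : ℤ) := Nat.isCoprime_iff_coprime.mpr h
  have h2 := h1.map (algebraMap ℤ (Zq q))
  simpa using h2

theorem mul_dvd_of_coprime (q : ℕ) {M ℓ : ℕ} (h : Nat.Coprime M ℓ) {x : Zq q}
    (h1 : (M : Zq q) ∣ x) (h2 : (ℓ : Zq q) ∣ x) : ((M * ℓ : ℕ) : Zq q) ∣ x := by
  push_cast
  exact (isCoprime_natCast_Zq q h).mul_dvd h1 h2

/-- Reduction modulo `ℓ` on `SL₂(ℤ[1/q])`. -/
def redSL (q ℓ : ℕ) (h : Nat.Coprime q ℓ) : Gq q →* SL(2, ZMod ℓ) :=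
  Matrix.SpecialLinearGroup.map (redL q ℓ h)

@[simp] theorem redSL_apply (h : Nat.Coprime q ℓ) (g : Gq q) (i j : Fin 2) :
    (redSL q ℓ h g) i j = redL q ℓ h (g i j) := by
  simp [redSL]

/-- The kernel of the reduction modulo `ℓ` is `G(ℓ)`. -/
theorem redSL_eq_one_iff (h : Nat.Coprime q ℓ) (g : Gq q) :
    redSL q ℓ h g = 1 ↔ g ∈ congr q ℓ := by
  rw [mem_congr]
  constructor
  · intro hg i j
    have h1 := congrArg (fun x : SL(2, ZMod ℓ) => x i j) hg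
    simp only [redSL_apply, Matrix.SpecialLinearGroup.coe_one] at h1
    rw [← redL_eq_zero_iff h, map_sub, h1]
    by_cases hij : i = j
    · subst hij; simp
    · simp [Matrix.one_apply_ne hij]
  · intro hg
    ext i j
    have h1 := (redL_eq_zero_iff h _).mpr (hg i j)
    rw [map_sub, sub_eq_zero] at h1
    rw [redSL_apply, h1, Matrix.SpecialLinearGroup.coe_one]
    by_cases hij : i = j
    · subst hij; simp
    · simp [Matrix.one_apply_ne hij]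

/-- `G(M) ∩ G(ℓ) = G(M ℓ)` for coprime `M`, `ℓ`. -/
theorem mem_congr_mul_iff (q : ℕ) {M ℓ : ℕ} (h : Nat.Coprime M ℓ) (g : Gq q) :
    g ∈ congr q (M * ℓ) ↔ g ∈ congr q M ∧ g ∈ congr q ℓ := by
  constructor
  · intro hg
    exact ⟨congr_mono q (Dvd.intro _ rfl) hg, congr_mono q (Dvd.intro_left _ rfl) hg⟩
  · rintro ⟨h1, h2⟩
    rw [mem_congr] at h1 h2 ⊢
    intro i j
    exact mul_dvd_of_coprime q h (h1 i j) (h2 i j)

end Fermat.Agent.LIhD
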