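/-
Cluster L (S41, level raising), WP IHARA, step (D'), Step 1 = the Hecke trick.
Owner: helper64 (statement: helper8 / helper45; proof: helper41's note).

From centrality (B) at the levels `M l` and Claim E: for a character `Φ` of `G(M)` killing
`E(M)` and a prime `l ∤ M q`, `l ≡ 2 mod p²`, there is a character `Ψ` of `G(M)` killing `E(M)`
with `Φ (D x D⁻¹) = Ψ x` whenever `x, D x D⁻¹ ∈ G(M)`, `D = diag(l, 1)`.
-/
import Fermat.Agent.L.IharaD.ZqRed
import Fermat.Agent.L.Ihara.LemmaU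

set_option autoImplicit false

noncomputable section

namespace Fermat.Agent.LIhHT

open Matrix Fermat.Agent.LIh Fermat.Agent.LIhD
open scoped MatrixGroups

/-! ### The relation `y = D x D⁻¹`, `D = diag(l, 1)` -/

/-- The entrywise relation `y = D x D⁻¹` for `D = diag(l, 1)`:
`[a, b; c, d] ↦ [a, l b; c / l, d]`. -/
def RelD {q : ℕ} (l : ℕ) (x y : Gq q) : Prop :=
  y 0 0 = x 0 0 ∧ y 1 1 = x 1 1 ∧ y 0 1 = (l : Zq q) * x 0 1 ∧ x 1 0 = (l : Zq q) * y 1 0

variable {q l M : ℕ}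

theorem relD_one : RelD l (1 : Gq q) 1 := by
  simp [RelD]

theorem relD_mul {x y x' y' : Gq q} (h : RelD l x y) (h' : RelD l x' y') :
    RelD l (x * x') (y * y') := by
  obtain ⟨h1, h2, h3, h4⟩ := h
  obtain ⟨h1', h2', h3', h4'⟩ := h'
  simp only [RelD, Matrix.SpecialLinearGroup.coe_mul, Matrix.mul_apply, Fin.sum_univ_two,
    Fin.isValue]
  refine ⟨?_, ?_, ?_, ?_⟩
  · rw [h1, h1', h3, h4']; ring
  · rw [h2, h2', h3', h4]; ring
  · rw [h1, h3', h3, h2']; ring
  · rw [h4, h1', h2, h4']; ring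

theorem relD_pow {x y : Gq q} (h : RelD l x y) (n : ℕ) : RelD l (x ^ n) (y ^ n) := by
  induction n with
  | zero => simpa using relD_one
  | succ n ih => rw [pow_succ, pow_succ]; exact relD_mul ih h

theorem relD_unique [IsDomain (Zq q)] (hl : (l : Zq q) ≠ 0) {x y y' : Gq q}
    (h : RelD l x y) (h' : RelD l x y') : y = y' := by
  obtain ⟨h1, h2, h3, h4⟩ := h
  obtain ⟨h1', h2', h3', h4'⟩ := h'
  ext i j
  fin_cases i <;> fin_cases j
  · exact h1.trans h1'.symm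
  · exact h3.trans h3'.symm
  · exact mul_left_cancel₀ hl (h4.symm.trans h4')
  · exact h2.trans h2'.symm

theorem relD_exists (x : Gq q) (h : (l : Zq q) ∣ x 1 0) : ∃ y : Gq q, RelD l x y := by
  obtain ⟨c, hc⟩ := h
  have hdet : x 0 0 * x 1 1 - x 0 1 * x 1 0 = 1 := by
    have := x.2
    rwa [Matrix.det_fin_two] at this
  refine ⟨⟨!![x 0 0, (l : Zq q) * x 0 1; c, x 1 1], ?_⟩, rfl, rfl, rfl, hc⟩
  rw [Matrix.det_fin_two_of]
  rw [hc] at hdet
  linear_combination hdet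

theorem relD_mem_congr (hMl : Nat.Coprime M l) {x y : Gq q} (hx : x ∈ congr q M)
    (h : RelD l x y) : y ∈ congr q M := by
  obtain ⟨h1, h2, h3, h4⟩ := h
  rw [mem_congr] at hx ⊢
  intro i j
  fin_cases i <;> fin_cases j
  · have := hx 0 0
    simpa [h1] using this
  · have := hx 0 1
    simp only [Fin.zero_eta, Fin.isValue, Fin.mk_one, ne_eq, zero_ne_one, not_false_eq_true,
      Matrix.one_apply_ne, sub_zero] at this ⊢
    rw [h3]
    exact Dvd.dvd.mul_left this _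
  · have := hx 1 0
    simp only [Fin.zero_eta, Fin.isValue, Fin.mk_one, ne_eq, one_ne_zero, not_false_eq_true,
      Matrix.one_apply_ne, sub_zero] at this ⊢
    rw [h4] at this
    exact (isCoprime_natCast_Zq q hMl).dvd_of_dvd_mul_left this
  · have := hx 1 1
    simpa [h2] using this

theorem relD_trace {x y : Gq q} (h : RelD l x y) : y 0 0 + y 1 1 = x 0 0 + x 1 1 := by
  rw [h.1, h.2.1]

/-! ### Characters killing the unipotents kill `E(M)` -/

theorem trace_conj_upper (g : Gq q) (t : Zq q) :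
    (g * upper q t * g⁻¹) 0 0 + (g * upper q t * g⁻¹) 1 1 = 2 := by
  have hdet : g 0 0 * g 1 1 - g 0 1 * g 1 0 = 1 := by
    have := g.2
    rwa [Matrix.det_fin_two] at this
  rw [Matrix.SpecialLinearGroup.coe_mul, Matrix.SpecialLinearGroup.coe_mul,
    Matrix.SpecialLinearGroup.coe_inv, Matrix.adjugate_fin_two]
  simp only [upper, Matrix.mul_apply, Fin.sum_univ_two, Matrix.of_apply, Matrix.cons_val',
    Matrix.cons_val_zero, Matrix.cons_val_fin_one, Matrix.cons_val_one, Fin.isValue]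
  linear_combination 2 * hdet

theorem upper_mem_congr (t : Zq q) : upper q ((M : Zq q) * t) ∈ congr q M := by
  rw [mem_congr]
  intro i j
  fin_cases i <;> fin_cases j <;> simp [upper]

theorem elem_le_congr : elem q M ≤ congr q M := by
  apply Subgroup.normalClosure_le_normal
  rintro g ⟨t, rfl⟩
  exact upper_mem_congr t

theorem isUnip_iff {x : Gq q} : IsUnip x ↔ x 0 0 + x 1 1 = 2 := by
  rw [IsUnip, Matrix.trace_fin_two]

/-- A character of `G(M)` killing the unipotent elements kills `E(M)`. -/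
theorem kills_elem_of_killsUnip {p : ℕ} (c : Additive (congr q M) →+ ZMod p)
    (hc : KillsUnip (congr q M) c) :
    ∀ x : congr q M, (x : Gq q) ∈ elem q M → c (Additive.ofMul x) = 0 := by
  let S : Subgroup (Gq q) :=
    { carrier := {x | ∃ h : x ∈ congr q M, c (Additive.ofMul ⟨x, h⟩) = 0}
      one_mem' := ⟨one_mem _, by
        have : (⟨1, one_mem _⟩ : congr q M) = 1 := rfl
        rw [this, ofMul_one, map_zero]⟩
      mul_mem' := by
        rintro a b ⟨ha, ha'⟩ ⟨hb, hb'⟩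
        refine ⟨mul_mem ha hb, ?_⟩
        have : (⟨a * b, mul_mem ha hb⟩ : congr q M) = ⟨a, ha⟩ * ⟨b, hb⟩ := rfl
        rw [this, ofMul_mul, map_add, ha', hb', add_zero]
      inv_mem' := by
        rintro a ⟨ha, ha'⟩
        refine ⟨inv_mem ha, ?_⟩
        have : (⟨a⁻¹, inv_mem ha⟩ : congr q M) = (⟨a, ha⟩ : congr q M)⁻¹ := rfl
        rw [this, ofMul_inv, map_neg, ha', neg_zero] }
  have hle : elem q M ≤ S := by
    rw [elem, Subgroup.normalClosure, Subgroup.closure_le]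
    intro z hz
    rw [Group.mem_conjugatesOfSet_iff] at hz
    obtain ⟨u, ⟨t, rfl⟩, hconj⟩ := hz
    rw [isConj_iff] at hconj
    obtain ⟨g, rfl⟩ := hconj
    have hmem : g * upper q ((M : Zq q) * t) * g⁻¹ ∈ congr q M :=
      (congr_normal q M).conj_mem _ (upper_mem_congr t) g
    exact ⟨hmem, hc ⟨_, hmem⟩ (isUnip_iff.mpr (trace_conj_upper g _))⟩
  intro x hx
  obtain ⟨h, h0⟩ := hle hx
  exact h0

/-! ### The conjugation `x ↦ D x D⁻¹` as a homomorphism `G(M l) → G(M)` -/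

theorem dvd_of_mem_congr_mul {x : Gq q} (hx : x ∈ congr q (M * l)) : (l : Zq q) ∣ x 1 0 := by
  have := (mem_congr.mp hx) 1 0
  simp only [Fin.isValue, ne_eq, one_ne_zero, not_false_eq_true, Matrix.one_apply_ne,
    sub_zero] at this
  refine Dvd.dvd.trans ?_ this
  exact ⟨(M : Zq q), by push_cast; ring⟩

/-- The matrix `D x D⁻¹` for `x ∈ G(M l)`. -/
def conjDFun (q M l : ℕ) (x : congr q (M * l)) : Gq q :=
  Classical.choose (relD_exists (x : Gq q) (dvd_of_mem_congr_mul x.2))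

theorem conjDFun_spec (x : congr q (M * l)) : RelD l (x : Gq q) (conjDFun q M l x) :=
  Classical.choose_spec (relD_exists (x : Gq q) (dvd_of_mem_congr_mul x.2))

theorem natCast_Zq_ne_zero (hq : q ≠ 0) {n : ℕ} (hn : n ≠ 0) : (n : Zq q) ≠ 0 := by
  intro h
  apply hn
  have h1 : algebraMap ℤ (Zq q) (n : ℤ) = algebraMap ℤ (Zq q) 0 := by
    rw [map_zero]; simpa using h
  exact_mod_cast Fermat.Agent.LIhU.algebraMap_Zq_injective hq h1

/-- Conjugation by `D = diag(l, 1)` as a homomorphism `G(M l) → G(M)`. -/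
def conjD (q M l : ℕ) (hq : q ≠ 0) (hl : l ≠ 0) (hMl : Nat.Coprime M l) :
    congr q (M * l) →* congr q M where
  toFun x := ⟨conjDFun q M l x, relD_mem_congr hMl (congr_mul_le q M l x.2) (conjDFun_spec x)⟩
  map_one' := by
    have : IsDomain (Zq q) := Fermat.Agent.LIhU.isDomain_Zq hq
    apply Subtype.ext
    exact relD_unique (natCast_Zq_ne_zero hq hl) (conjDFun_spec (1 : congr q (M * l))) relD_one
  map_mul' x y := by
    have : IsDomain (Zq q) := Fermat.Agent.LIhU.isDomain_Zq hq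
    apply Subtype.ext
    exact relD_unique (natCast_Zq_ne_zero hq hl) (conjDFun_spec (x * y))
      (relD_mul (conjDFun_spec x) (conjDFun_spec y))

theorem conjD_spec (hq : q ≠ 0) (hl : l ≠ 0) (hMl : Nat.Coprime M l) (x : congr q (M * l)) :
    RelD l (x : Gq q) (conjD q M l hq hl hMl x : Gq q) :=
  conjDFun_spec x

/-! ### Powers of upper triangular matrices modulo `l` -/

theorem upperTri_pow {k : Type*} [CommRing k] (X : SL(2, k)) (h : X 1 0 = 0) (n : ℕ) :
    (X ^ n) 1 0 = 0 ∧ (X ^ n) 0 0 = (X 0 0) ^ n ∧ (X ^ n) 1 1 = (X 1 1) ^ n := by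
  induction n with
  | zero => simp
  | succ n ih =>
    obtain ⟨h1, h2, h3⟩ := ih
    rw [pow_succ]
    simp only [Matrix.SpecialLinearGroup.coe_mul, Matrix.mul_apply, Fin.sum_univ_two,
      Fin.isValue]
    refine ⟨?_, ?_, ?_⟩
    · rw [h1, h]; ring
    · rw [h2, h]; ring
    · rw [h1, h3]; ring

theorem unipTri_pow {k : Type*} [CommRing k] (Y : SL(2, k)) (h10 : Y 1 0 = 0)
    (h00 : Y 0 0 = 1) (h11 : Y 1 1 = 1) (n : ℕ) : (Y ^ n) 0 1 = (n : k) * Y 0 1 := by
  induction n with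
  | zero => simp
  | succ n ih =>
    have h := (upperTri_pow Y h10 n).2.1
    rw [pow_succ]
    simp only [Matrix.SpecialLinearGroup.coe_mul, Matrix.mul_apply, Fin.sum_univ_two,
      Fin.isValue]
    rw [ih, h, h00, h11]
    push_cast
    ring

theorem pow_eq_one_of_upperTri {l : ℕ} [Fact l.Prime] (X : SL(2, ZMod l)) (h : X 1 0 = 0) :
    X ^ ((l - 1) * l) = 1 := by
  have hdet : X 0 0 * X 1 1 - X 0 1 * X 1 0 = 1 := by
    have := X.2
    rwa [Matrix.det_fin_two] at this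
  rw [h, mul_zero, sub_zero] at hdet
  have h00 : X 0 0 ≠ 0 := by
    intro h0
    rw [h0, zero_mul] at hdet
    exact zero_ne_one hdet
  have h11 : X 1 1 ≠ 0 := by
    intro h0
    rw [h0, mul_zero] at hdet
    exact zero_ne_one hdet
  obtain ⟨e1, e2, e3⟩ := upperTri_pow X h (l - 1)
  rw [ZMod.pow_card_sub_one_eq_one h00] at e2
  rw [ZMod.pow_card_sub_one_eq_one h11] at e3
  rw [pow_mul]
  set Y := X ^ (l - 1) with hY
  obtain ⟨f1, f2, f3⟩ := upperTri_pow Y e1 l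
  have f4 := unipTri_pow Y e1 e2 e3 l
  rw [e2, one_pow] at f2
  rw [e3, one_pow] at f3
  rw [ZMod.natCast_self, zero_mul] at f4
  ext i j
  fin_cases i <;> fin_cases j
  · simpa using f2
  · simpa using f4
  · simpa using f1
  · simpa using f3

theorem pow_mem_congr_mul (hl : l.Prime) (hql : Nat.Coprime q l) (hMl : Nat.Coprime M l)
    {x : Gq q} (hx : x ∈ congr q M) (h10 : (l : Zq q) ∣ x 1 0) :
    x ^ ((l - 1) * l) ∈ congr q (M * l) := by
  rw [mem_congr_mul_iff q hMl]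
  refine ⟨pow_mem hx _, ?_⟩
  rw [← redSL_eq_one_iff hql, map_pow]
  have : Fact l.Prime := ⟨hl⟩
  apply pow_eq_one_of_upperTri
  rw [redSL_apply, redL_eq_zero_iff]
  exact h10

/-! ### Arithmetic of the auxiliary prime -/

theorem natCast_eq_two_of_modEq {p l : ℕ} (hl2 : l ≡ 2 [MOD p ^ 2]) : (l : ZMod p) = 2 := by
  have h1 : l ≡ 2 [MOD p] := hl2.of_dvd (dvd_pow_self p two_ne_zero)
  have := (ZMod.natCast_eq_natCast_iff l 2 p).mpr h1
  simpa using this

theorem two_ne_zero_zmod {p : ℕ} (hp : p.Prime) (hp2 : p ≠ 2) : (2 : ZMod p) ≠ 0 := by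
  intro h
  have h1 : ((2 : ℕ) : ZMod p) = 0 := by simpa using h
  rw [ZMod.natCast_eq_zero_iff] at h1
  exact hp2 ((Nat.prime_dvd_prime_iff_eq hp Nat.prime_two).mp h1)

theorem natCast_index_ne_zero {p l : ℕ} (hp : p.Prime) (hp2 : p ≠ 2) (hl : l.Prime)
    (hl2 : l ≡ 2 [MOD p ^ 2]) : (((l - 1) * l : ℕ) : ZMod p) ≠ 0 := by
  have h2 := natCast_eq_two_of_modEq hl2
  rw [Nat.cast_mul, Nat.cast_sub hl.one_le, h2]
  norm_num
  exact two_ne_zero_zmod hp hp2

theorem goodL_of_modEq {p l : ℕ} (hp : p.Prime) (hp2 : p ≠ 2) (hl : l.Prime)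
    (hl2 : l ≡ 2 [MOD p ^ 2]) : GoodL p l := by
  by_cases h3 : p = 3
  · right
    subst h3
    exact ⟨rfl, hl2⟩
  · left
    rw [← ZMod.natCast_eq_zero_iff]
    have h2 := natCast_eq_two_of_modEq hl2
    rw [Nat.cast_mul, Nat.cast_mul, Nat.cast_add, Nat.cast_sub hl.one_le, h2]
    norm_num
    intro h6
    have h6' : ((6 : ℕ) : ZMod p) = 0 := by simpa using h6
    rw [ZMod.natCast_eq_zero_iff] at h6'
    have h23 : p ∣ 2 * 3 := by simpa using h6'
    rcases (Nat.Prime.dvd_mul hp).mp h23 with h | h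
    · exact hp2 ((Nat.prime_dvd_prime_iff_eq hp Nat.prime_two).mp h)
    · exact h3 ((Nat.prime_dvd_prime_iff_eq hp Nat.prime_three).mp h)

/-! ### The Hecke trick -/

/-- **Step 1 of (D')**: the Hecke trick, from centrality (B) and Claim E. -/
theorem heckeTrick_of_claimE (q p M : ℕ)
    (hB : ∀ M', LIh.CentralStatement q p M') (hE : ∀ M' ℓ, LIhD.ClaimEStatement q p M' ℓ) :
    Fermat.Agent.LIhS.HeckeTrick q p M := by
  intro hq hp hp2 hqp hM hMq Φ hΦ l hl hlM hlq hl2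
  have hq0 : q ≠ 0 := hq.ne_zero
  have hl0 : l ≠ 0 := hl.ne_zero
  have hMl : Nat.Coprime M l := ((Nat.Prime.coprime_iff_not_dvd hl).mpr hlM).symm
  have hql : Nat.Coprime q l := (Nat.coprime_primes hq hl).mpr (Ne.symm hlq)
  have hdom : IsDomain (Zq q) := Fermat.Agent.LIhU.isDomain_Zq hq0
  have hlMq : ¬ l ∣ M * q := by
    intro h
    rcases (Nat.Prime.dvd_mul hl).mp h with h | h
    · exact hlM h
    · exact hlq ((Nat.prime_dvd_prime_iff_eq hl hq).mp h)
  -- the character `Ψ₀ = Φ ∘ (conjugation by D)` of `G(M l)`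
  let cD := conjD q M l hq0 hl0 hMl
  let Ψ₀ : Additive (congr q (M * l)) →+ ZMod p := Φ.comp (MonoidHom.toAdditive cD)
  have hΨ₀ : ∀ x : congr q (M * l), Ψ₀ (Additive.ofMul x) = Φ (Additive.ofMul (cD x)) :=
    fun _ => rfl
  have hΨ₀unip : KillsUnip (congr q (M * l)) Ψ₀ := by
    intro x hx
    rw [hΨ₀]
    apply hΦ
    apply Fermat.Agent.LIhU.mem_elem_of_trace_eq_two
    · exact (cD x).2
    · rw [relD_trace (conjD_spec hq0 hl0 hMl x)]
      exact isUnip_iff.mp hx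
  have hΨ₀E := kills_elem_of_killsUnip Ψ₀ hΨ₀unip
  have hΨ₀inv : IsInvariant (congr q (M * l)) Ψ₀ :=
    hB (M * l) hq hp hqp (Nat.mul_pos hM hl.pos) (Nat.Coprime.mul_left hMq hql.symm) Ψ₀ hΨ₀E
  obtain ⟨Ψ', hΨ'unip, hΨ'ext⟩ := hE M l hq hp hp2 hqp hM hMq hl hlMq
    (goodL_of_modEq hp hp2 hl hl2) Ψ₀ hΨ₀inv hΨ₀unip
  refine ⟨Ψ', kills_elem_of_killsUnip Ψ' hΨ'unip, ?_⟩
  intro x y h1 h2 h3 h4
  have hR : RelD l (x : Gq q) (y : Gq q) := ⟨h1, h2, h3, h4⟩
  have hxn : (x : Gq q) ^ ((l - 1) * l) ∈ congr q (M * l) :=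
    pow_mem_congr_mul hl hql hMl x.2 ⟨_, h4⟩
  have hRn := relD_pow hR ((l - 1) * l)
  have e1 : cD ⟨(x : Gq q) ^ ((l - 1) * l), hxn⟩ = y ^ ((l - 1) * l) := by
    apply Subtype.ext
    rw [Subgroup.coe_pow]
    exact relD_unique (natCast_Zq_ne_zero hq0 hl0) (conjD_spec hq0 hl0 hMl _) hRn
  have e2 : Ψ₀ (Additive.ofMul ⟨(x : Gq q) ^ ((l - 1) * l), hxn⟩) =
      ((l - 1) * l) • Φ (Additive.ofMul y) := by
    rw [hΨ₀, e1, ofMul_pow, map_nsmul]
  have e3 : Ψ' (Additive.ofMul ⟨(x : Gq q) ^ ((l - 1) * l), congr_mul_le q M l hxn⟩) =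
      ((l - 1) * l) • Ψ' (Additive.ofMul x) := by
    have : (⟨(x : Gq q) ^ ((l - 1) * l), congr_mul_le q M l hxn⟩ : congr q M) =
        x ^ ((l - 1) * l) := by
      apply Subtype.ext
      rw [Subgroup.coe_pow]
    rw [this, ofMul_pow, map_nsmul]
  have e4 := hΨ'ext ((x : Gq q) ^ ((l - 1) * l)) hxn
  rw [e2, e3] at e4
  rw [nsmul_eq_mul, nsmul_eq_mul] at e4
  have : Fact p.Prime := ⟨hp⟩
  exact (mul_left_cancel₀ (natCast_index_ne_zero hp hp2 hl hl2) e4).symm

end Fermat.Agent.LIhHT
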