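import Fermat.Agent.L.IharaD.S23Final
import Fermat.Agent.L.IharaD.HeckeTrick

/-!
# Cluster L / IHARA / (D'): final wiring

`cspStatement_of_claimE`: `CSPStatement q p M` from Claim E alone
((B) = `LIhB.centralStatement`, Step 1 = `LIhHT.heckeTrick_of_claimE`,
Steps 2+3 = `LIhS.csp_of_heckeTrick`).
-/

set_option autoImplicit false

namespace Fermat.Agent.LIhD

/-- **(D')** from Claim E. -/
theorem cspStatement_of_claimE (q p M : ℕ) (hE : ∀ M' ℓ, LIhD.ClaimEStatement q p M' ℓ) :
    Fermat.Agent.LIh.CSPStatement q p M :=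
  Fermat.Agent.LIhS.csp_of_heckeTrick q p M
    (Fermat.Agent.LIhHT.heckeTrick_of_claimE q p M
      (fun M' => Fermat.Agent.LIhB.centralStatement q p M') hE)

end Fermat.Agent.LIhD
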