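/-
Cluster L (S41, level raising), WP IHARA, step (D') (Claim E).  Owner: helper8.

Ambient-free group theory: extension of an invariant homomorphism by the transfer.

Let `P ≤ G` be of finite index prime to `p`, `H ⊴ G` with `H ≤ P`, and `c : P → 𝔽_p` a
homomorphism whose restriction to `H` is invariant under conjugation by `G`.  Then
`c' := [G : P]⁻¹ • (c ∘ transfer)` is a homomorphism `G → 𝔽_p` which extends `c|_H` and kills
every `g ∈ G` all of whose conjugated powers `t⁻¹ g ^ n t ∈ P` are killed by `c`.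
-/
import Fermat.Agent.L.Degen.Bridge

set_option autoImplicit false

noncomputable section

namespace Fermat.Agent.LIhD

open Subgroup MonoidHom Fermat.Agent.LDeg

variable {G : Type*} [Group G] {P : Subgroup G}

/-- On a normal subgroup `H ≤ P` on which `ϕ` is `G`-invariant, the transfer of `ϕ` is the
`[G : P]`-th power of `ϕ`. -/
theorem transfer_eq_pow_of_invariant {M : Type*} [CommGroup M] (ϕ : P →* M) [P.FiniteIndex]
    (H : Subgroup G) [hH : H.Normal] (hHP : H ≤ P)
    (hinv : ∀ (t x : G) (hx : x ∈ H),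
      ϕ ⟨t⁻¹ * x * t, hHP (hH.conj_mem' x hx t)⟩ = ϕ ⟨x, hHP hx⟩)
    (x : G) (hx : x ∈ H) : transfer ϕ x = ϕ ⟨x, hHP hx⟩ ^ P.index := by
  classical
  let _ : Fintype (G ⧸ P) := P.fintypeQuotientOfFiniteIndex
  rw [transfer_eq_prod_section ϕ Quotient.out Quotient.out_eq' x]
  have hfix : ∀ q : G ⧸ P, x⁻¹ • q = q := by
    intro q
    obtain ⟨t, rfl⟩ := QuotientGroup.mk_surjective q
    show ((x⁻¹ * t : G) : G ⧸ P) = (t : G ⧸ P)
    rw [QuotientGroup.eq]
    have h1 : (x⁻¹ * t)⁻¹ * t = t⁻¹ * x * t := by group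
    rw [h1]
    exact hHP (hH.conj_mem' x hx t)
  have h1 : ∀ q : G ⧸ P, ϕ ⟨(Quotient.out q)⁻¹ * (x * Quotient.out (x⁻¹ • q)),
      section_mem Quotient.out Quotient.out_eq' x q⟩ = ϕ ⟨x, hHP hx⟩ := by
    intro q
    rw [← hinv (Quotient.out q) x hx]
    refine congrArg ϕ (Subtype.ext ?_)
    show (Quotient.out q)⁻¹ * (x * Quotient.out (x⁻¹ • q)) = (Quotient.out q)⁻¹ * x * Quotient.out q
    rw [hfix q, mul_assoc]
  rw [Finset.prod_congr rfl fun q _ => h1 q, Finset.prod_const, Finset.card_univ, Subgroup.index,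
    Nat.card_eq_fintype_card]

variable {A : Type*} [AddCommGroup A]

/-- The corestriction (transfer) `Hom(P, A) → Hom(G, A)` for a subgroup `P ≤ G` of finite
index. -/
def corAdd (P : Subgroup G) [P.FiniteIndex] (c : Additive P →+ A) : Additive G →+ A :=
  MonoidHom.toAdditiveLeft (transfer (AddMonoidHom.toMultiplicativeRight c))

theorem corAdd_apply (P : Subgroup G) [P.FiniteIndex] (c : Additive P →+ A) (g : G) :
    corAdd P c (Additive.ofMul g) =
      Multiplicative.toAdd (transfer (AddMonoidHom.toMultiplicativeRight c) g) := rfl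

theorem corAdd_apply_of_invariant (P : Subgroup G) [P.FiniteIndex] (c : Additive P →+ A)
    (H : Subgroup G) [hH : H.Normal] (hHP : H ≤ P)
    (hinv : ∀ (t x : G) (hx : x ∈ H),
      c (Additive.ofMul ⟨t⁻¹ * x * t, hHP (hH.conj_mem' x hx t)⟩) =
        c (Additive.ofMul ⟨x, hHP hx⟩))
    (x : G) (hx : x ∈ H) :
    corAdd P c (Additive.ofMul x) = P.index • c (Additive.ofMul ⟨x, hHP hx⟩) := by
  rw [corAdd_apply, transfer_eq_pow_of_invariant (AddMonoidHom.toMultiplicativeRight c) H hHP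
    (fun t x hx => by
      show Multiplicative.ofAdd (c (Additive.ofMul _)) = Multiplicative.ofAdd (c (Additive.ofMul _))
      rw [hinv t x hx]) x hx]
  rfl

theorem corAdd_apply_eq_zero (P : Subgroup G) [P.FiniteIndex] (c : Additive P →+ A) (g : G)
    (h : ∀ (n : ℕ) (t : G) (x : P), 0 < n → (x : G) = t⁻¹ * g ^ n * t →
      c (Additive.ofMul x) = 0) :
    corAdd P c (Additive.ofMul g) = 0 := by
  rw [corAdd_apply, transfer_eq_one_of_conj (AddMonoidHom.toMultiplicativeRight c) g
    (fun n t x hn hx => by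
      show Multiplicative.ofAdd (c (Additive.ofMul x)) = 1
      rw [h n t x hn hx]
      rfl)]
  rfl

/-- **Claim E (abstract).**  Extension of an invariant homomorphism by the transfer. -/
theorem exists_extension_of_invariant (p : ℕ) [Fact p.Prime] (P : Subgroup G) [P.FiniteIndex]
    (hp : ¬ p ∣ P.index) (H : Subgroup G) [hH : H.Normal] (hHP : H ≤ P)
    (c : Additive P →+ ZMod p)
    (hinv : ∀ (t x : G) (hx : x ∈ H),
      c (Additive.ofMul ⟨t⁻¹ * x * t, hHP (hH.conj_mem' x hx t)⟩) =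
        c (Additive.ofMul ⟨x, hHP hx⟩)) :
    ∃ c' : Additive G →+ ZMod p,
      (∀ (x : G) (hx : x ∈ H), c' (Additive.ofMul x) = c (Additive.ofMul ⟨x, hHP hx⟩)) ∧
      (∀ g : G, (∀ (n : ℕ) (t : G) (x : P), 0 < n → (x : G) = t⁻¹ * g ^ n * t →
        c (Additive.ofMul x) = 0) → c' (Additive.ofMul g) = 0) := by
  have hunit : ((P.index : ℕ) : ZMod p) ≠ 0 := by
    rw [Ne, ZMod.natCast_eq_zero_iff]
    exact hp
  refine ⟨(AddMonoidHom.mulLeft ((P.index : ZMod p)⁻¹)).comp (corAdd P c), fun x hx => ?_,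
    fun g hg => ?_⟩
  · rw [AddMonoidHom.comp_apply, corAdd_apply_of_invariant P c H hHP hinv x hx,
      AddMonoidHom.coe_mulLeft, nsmul_eq_mul, ← mul_assoc, inv_mul_cancel₀ hunit, one_mul]
  · rw [AddMonoidHom.comp_apply, corAdd_apply_eq_zero P c g hg, map_zero]

end Fermat.Agent.LIhD
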