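/-
Cluster L (S41, level raising), WP IHARA, step (D') (Claim E, case `p = 3`).  Owner: helper8.

Ambient-free group theory: extension of an invariant homomorphism `c : H → A` from a normal
subgroup `H` to a subgroup `P = ⟨s⟩ H`, provided `c` kills the powers of `s` lying in `H`.
-/
import Fermat.Agent.L.IharaD.Transfer

set_option autoImplicit false

noncomputable section

namespace Fermat.Agent.LIhD

open Subgroup

variable {G : Type*} [Group G]

/-- **Cyclic extension.**  Let `H ⊴ G`, `H ≤ P`, and `s` be such that every element of `P` lies in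
some `s ^ n H`.  A `G`-invariant homomorphism `c : H → A` which kills the powers of `s` lying in `H`
extends to `P`. -/
theorem exists_extension_cyclic (P H : Subgroup G) [hH : H.Normal] (hHP : H ≤ P)
    (s : G) (hgen : ∀ x ∈ P, ∃ n : ℤ, s ^ n * x ∈ H)
    {A : Type*} [AddCommGroup A] (c : Additive H →+ A)
    (hinv : ∀ (t x : G) (hx : x ∈ H),
      c (Additive.ofMul ⟨t⁻¹ * x * t, hH.conj_mem' x hx t⟩) = c (Additive.ofMul ⟨x, hx⟩))
    (hs : ∀ (n : ℤ) (hn : s ^ n ∈ H), c (Additive.ofMul ⟨s ^ n, hn⟩) = 0) :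
    ∃ c' : Additive P →+ A,
      ∀ (x : G) (hx : x ∈ H), c' (Additive.ofMul ⟨x, hHP hx⟩) = c (Additive.ofMul ⟨x, hx⟩) := by
  classical
  -- the function
  let f : P → A := fun x =>
    c (Additive.ofMul ⟨s ^ (Classical.choose (hgen x x.2)) * x, Classical.choose_spec (hgen x x.2)⟩)
  -- multiplicativity of `c` in subtype form
  have cmul : ∀ (a b : G) (ha : a ∈ H) (hb : b ∈ H),
      c (Additive.ofMul ⟨a * b, H.mul_mem ha hb⟩) =
        c (Additive.ofMul ⟨a, ha⟩) + c (Additive.ofMul ⟨b, hb⟩) := by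
    intro a b ha hb
    have : (⟨a * b, H.mul_mem ha hb⟩ : H) = ⟨a, ha⟩ * ⟨b, hb⟩ := rfl
    rw [this, ofMul_mul, map_add]
  have ccongr : ∀ (a b : G) (ha : a ∈ H) (hab : a = b),
      c (Additive.ofMul ⟨a, ha⟩) = c (Additive.ofMul ⟨b, hab ▸ ha⟩) := by
    intro a b ha hab
    subst hab
    rfl
  have key : ∀ (x : P) (n : ℤ) (hn : s ^ n * (x : G) ∈ H),
      f x = c (Additive.ofMul ⟨s ^ n * x, hn⟩) := by
    intro x n hn
    set m := Classical.choose (hgen x x.2) with hm
    have hmH : s ^ m * (x : G) ∈ H := Classical.choose_spec (hgen x x.2)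
    have h1 : s ^ (n - m) ∈ H := by
      have : s ^ (n - m) = (s ^ n * (x : G)) * (s ^ m * (x : G))⁻¹ := by
        rw [zpow_sub]; group
      rw [this]
      exact H.mul_mem hn (H.inv_mem hmH)
    have h2 : s ^ n * (x : G) = s ^ (n - m) * (s ^ m * (x : G)) := by
      rw [← mul_assoc, ← zpow_add, sub_add_cancel]
    rw [ccongr _ _ hn h2, cmul _ _ h1 hmH, hs _ h1, zero_add]
  have hadd : ∀ x y : P, f (x * y) = f x + f y := by
    intro x y
    obtain ⟨n, hn⟩ := hgen x x.2
    obtain ⟨m, hm⟩ := hgen y y.2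
    have h1 : (s ^ (-m))⁻¹ * (s ^ n * (x : G)) * s ^ (-m) ∈ H := hH.conj_mem' _ hn _
    have h2 : s ^ (m + n) * ((x * y : P) : G) =
        ((s ^ (-m))⁻¹ * (s ^ n * (x : G)) * s ^ (-m)) * (s ^ m * (y : G)) := by
      rw [Subgroup.coe_mul, zpow_add, zpow_neg]; group
    have h3 : s ^ (m + n) * ((x * y : P) : G) ∈ H := by
      rw [h2]; exact H.mul_mem h1 hm
    rw [key (x * y) (m + n) h3, key x n hn, key y m hm, ccongr _ _ h3 h2, cmul _ _ h1 hm,
      hinv (s ^ (-m)) _ hn]
  refine ⟨AddMonoidHom.mk' (fun x => f (Additive.toMul x)) (fun x y => hadd _ _), fun x hx => ?_⟩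
  have h0 : s ^ (0 : ℤ) * x ∈ H := by rw [zpow_zero, one_mul]; exact hx
  show f ⟨x, hHP hx⟩ = _
  rw [key ⟨x, hHP hx⟩ 0 h0]
  exact (ccongr _ _ hx (by rw [zpow_zero, one_mul])).symm

end Fermat.Agent.LIhD
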