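/-
Cluster L (S41, level raising), WP IHARA, step (D') (Claim E).  helper45.

* `card_SL2_zmod`: `|SL₂(𝔽_ℓ)| = ℓ (ℓ - 1) (ℓ + 1)`.
* `redCongr q M ℓ h : G(M) →* SL₂(𝔽_ℓ)`, `ker_redCongr` (kernel `= G(M ℓ)`),
  `redCongr_surjective`.
* `index_congr_mul_dvd`, `finiteIndex_congr_mul`, `not_dvd_index_congr_mul`:
  `[G(M) : G(M ℓ)]` is finite, divides `ℓ (ℓ - 1) (ℓ + 1)`.
-/
import Fermat.Agent.L.IharaD.ZqRed
import Mathlib.LinearAlgebra.Matrix.GeneralLinearGroup.Card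

set_option autoImplicit false

noncomputable section

namespace Fermat.Agent.LIhD

open Matrix Fermat.Agent.LIh
open scoped MatrixGroups

/-- `det : GL₂(F) → Fˣ` is surjective. -/
theorem det_GL2_surjective {F : Type*} [Field F] :
    Function.Surjective (Matrix.GeneralLinearGroup.det : GL (Fin 2) F →* Fˣ) := by
  intro u
  refine ⟨Matrix.GeneralLinearGroup.mkOfDetNeZero !![(u : F), 0; 0, 1] (by simp), ?_⟩
  ext
  simp [Matrix.GeneralLinearGroup.mkOfDetNeZero]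

/-- The kernel of `det` on `GL₂(F)` is (the image of) `SL₂(F)`. -/
theorem ker_det_GL2_eq_range {F : Type*} [Field F] :
    (Matrix.GeneralLinearGroup.det : GL (Fin 2) F →* Fˣ).ker =
      (Matrix.SpecialLinearGroup.toGL : SL(2, F) →* GL (Fin 2) F).range := by
  ext g
  rw [MonoidHom.mem_ker, MonoidHom.mem_range]
  constructor
  · intro hg
    have h1 : (g : Matrix (Fin 2) (Fin 2) F).det = 1 := by
      have := congrArg (fun u : Fˣ => (u : F)) hg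
      simpa using this
    refine ⟨⟨(g : Matrix (Fin 2) (Fin 2) F), h1⟩, ?_⟩
    ext i j
    rfl
  · rintro ⟨s, rfl⟩
    ext
    simp

/-- `|SL₂(F)| (|F| - 1) = (|F|² - 1)(|F|² - |F|)`. -/
theorem card_SL2_mul (F : Type*) [Field F] [Fintype F] :
    Nat.card (SL(2, F)) * (Fintype.card F - 1) =
      (Fintype.card F ^ 2 - 1) * (Fintype.card F ^ 2 - Fintype.card F) := by
  have h1 := Subgroup.card_mul_index (Matrix.GeneralLinearGroup.det : GL (Fin 2) F →* Fˣ).ker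
  rw [Subgroup.index_ker, ker_det_GL2_eq_range] at h1
  have h2 : Nat.card (Matrix.SpecialLinearGroup.toGL : SL(2, F) →* GL (Fin 2) F).range =
      Nat.card (SL(2, F)) :=
    (Nat.card_congr (MonoidHom.ofInjective
      (Matrix.SpecialLinearGroup.toGL_injective (n := Fin 2) (R := F))).toEquiv).symm
  have h3 : Nat.card (Matrix.GeneralLinearGroup.det : GL (Fin 2) F →* Fˣ).range =
      Fintype.card F - 1 := by
    rw [MonoidHom.range_eq_top.mpr det_GL2_surjective, Subgroup.card_top, Nat.card_units]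
    rw [Nat.card_eq_fintype_card]
  rw [h2, h3, Matrix.card_GL_field (𝔽 := F) 2] at h1
  rw [h1, Fin.prod_univ_two]
  simp

/-- `|SL₂(𝔽_ℓ)| = ℓ (ℓ - 1) (ℓ + 1)`. -/
theorem card_SL2_zmod (ℓ : ℕ) [Fact ℓ.Prime] :
    Nat.card (SL(2, ZMod ℓ)) = ℓ * (ℓ - 1) * (ℓ + 1) := by
  have h := card_SL2_mul (ZMod ℓ)
  rw [ZMod.card] at h
  have hℓ : 2 ≤ ℓ := (Fact.out : ℓ.Prime).two_le
  obtain ⟨k, rfl⟩ : ∃ k, ℓ = k + 1 := ⟨ℓ - 1, by omega⟩
  have hk : 0 < k := by omega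
  simp only [Nat.add_sub_cancel] at h ⊢
  have h1 : (k + 1) ^ 2 - 1 = k * (k + 2) := by
    have : (k + 1) ^ 2 = k * (k + 2) + 1 := by ring
    omega
  have h2 : (k + 1) ^ 2 - (k + 1) = k * (k + 1) := by
    have : (k + 1) ^ 2 = k * (k + 1) + (k + 1) := by ring
    omega
  rw [h1, h2] at h
  have h3 : Nat.card (SL(2, ZMod (k + 1))) * k = ((k + 1) * k * (k + 1 + 1)) * k := by
    rw [h]; ring
  exact Nat.eq_of_mul_eq_mul_right hk h3

variable {q ℓ : ℕ}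

/-- The reduction modulo `ℓ` restricted to `G(M)`. -/
def redCongr (q M ℓ : ℕ) (h : Nat.Coprime q ℓ) : congr q M →* SL(2, ZMod ℓ) :=
  (redSL q ℓ h).comp (congr q M).subtype

theorem redCongr_apply (M : ℕ) (h : Nat.Coprime q ℓ) (x : congr q M) :
    redCongr q M ℓ h x = redSL q ℓ h (x : Gq q) := rfl

/-- The kernel of the reduction modulo `ℓ` on `G(M)` is `G(M ℓ)`. -/
theorem ker_redCongr {M : ℕ} (h : Nat.Coprime q ℓ) (hM : Nat.Coprime M ℓ) :
    (redCongr q M ℓ h).ker = (congr q (M * ℓ)).subgroupOf (congr q M) := by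
  ext x
  rw [MonoidHom.mem_ker, Subgroup.mem_subgroupOf, redCongr_apply, redSL_eq_one_iff,
    mem_congr_mul_iff q hM]
  exact ⟨fun hx => ⟨x.2, hx⟩, fun hx => hx.2⟩

/-- `[G(M) : G(M ℓ)]` divides `|SL₂(𝔽_ℓ)| = ℓ (ℓ - 1) (ℓ + 1)`. -/
theorem index_congr_mul_dvd {M : ℕ} (hℓ : ℓ.Prime) (h : Nat.Coprime q ℓ) (hM : Nat.Coprime M ℓ) :
    ((congr q (M * ℓ)).subgroupOf (congr q M)).index ∣ ℓ * (ℓ - 1) * (ℓ + 1) := by
  have : Fact ℓ.Prime := ⟨hℓ⟩
  rw [← ker_redCongr h hM, Subgroup.index_ker, ← card_SL2_zmod ℓ]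
  exact Subgroup.card_subgroup_dvd_card _

theorem index_congr_mul_ne_zero {M : ℕ} (hℓ : ℓ.Prime) (h : Nat.Coprime q ℓ)
    (hM : Nat.Coprime M ℓ) : ((congr q (M * ℓ)).subgroupOf (congr q M)).index ≠ 0 := by
  intro h0
  have h1 := index_congr_mul_dvd hℓ h hM
  rw [h0, zero_dvd_iff] at h1
  have h2 : 0 < ℓ - 1 := by have := hℓ.two_le; omega
  have h3 : 0 < ℓ * (ℓ - 1) * (ℓ + 1) :=
    Nat.mul_pos (Nat.mul_pos hℓ.pos h2) (Nat.succ_pos _)
  omega

/-- `G(M ℓ)` has finite index in `G(M)`. -/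
theorem finiteIndex_congr_mul {M : ℕ} (hℓ : ℓ.Prime) (h : Nat.Coprime q ℓ)
    (hM : Nat.Coprime M ℓ) : ((congr q (M * ℓ)).subgroupOf (congr q M)).FiniteIndex :=
  ⟨index_congr_mul_ne_zero hℓ h hM⟩

/-- If `p ∤ ℓ (ℓ - 1) (ℓ + 1)` then `p ∤ [G(M) : G(M ℓ)]`. -/
theorem not_dvd_index_congr_mul {M p : ℕ} (hℓ : ℓ.Prime) (h : Nat.Coprime q ℓ)
    (hM : Nat.Coprime M ℓ) (hp : ¬ p ∣ ℓ * (ℓ - 1) * (ℓ + 1)) :
    ¬ p ∣ ((congr q (M * ℓ)).subgroupOf (congr q M)).index :=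
  fun h1 => hp (h1.trans (index_congr_mul_dvd hℓ h hM))

theorem slc_upper_mem_congr (q M : ℕ) (t : Zq q) : upper q ((M : Zq q) * t) ∈ congr q M := by
  rw [mem_congr]
  intro i j
  fin_cases i <;> fin_cases j <;> simp [upper]

theorem slc_lower_mem_congr (q M : ℕ) (t : Zq q) : lower q ((M : Zq q) * t) ∈ congr q M := by
  rw [mem_congr]
  intro i j
  fin_cases i <;> fin_cases j <;> simp [lower]

/-- Every `c : 𝔽_ℓ` is `M n` for a natural number `n`, if `M` is prime to `ℓ`. -/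
theorem exists_natCast_mul_eq {M : ℕ} [NeZero ℓ] (hM : Nat.Coprime M ℓ) (c : ZMod ℓ) :
    ∃ n : ℕ, ((M : ZMod ℓ) * (n : ZMod ℓ)) = c := by
  obtain ⟨u, hu⟩ := (ZMod.isUnit_iff_coprime M ℓ).mpr hM
  obtain ⟨n, hn⟩ := ZMod.natCast_zmod_surjective ((↑u⁻¹ : ZMod ℓ) * c)
  refine ⟨n, ?_⟩
  rw [hn, ← hu, ← mul_assoc, Units.mul_inv, one_mul]

/-- The reduction `G(M) → SL₂(𝔽_ℓ)` is surjective (`ℓ` prime, prime to `M q`). -/
theorem redCongr_surjective {M : ℕ} (hℓ : ℓ.Prime) (h : Nat.Coprime q ℓ)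
    (hM : Nat.Coprime M ℓ) : Function.Surjective (redCongr q M ℓ h) := by
  have : Fact ℓ.Prime := ⟨hℓ⟩
  intro A
  induction A using Matrix.SL2.transvection_induction with
  | htransvec i j hij c =>
    obtain ⟨n, hn⟩ := exists_natCast_mul_eq hM c
    fin_cases i <;> fin_cases j
    · exact absurd rfl hij
    · refine ⟨⟨upper q ((M : Zq q) * (n : Zq q)), slc_upper_mem_congr q M _⟩, ?_⟩
      ext a b
      rw [redCongr_apply, redSL_apply]
      fin_cases a <;> fin_cases b <;>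
        simp [upper, Matrix.SpecialLinearGroup.transvection_coe, hn]
    · refine ⟨⟨lower q ((M : Zq q) * (n : Zq q)), slc_lower_mem_congr q M _⟩, ?_⟩
      ext a b
      rw [redCongr_apply, redSL_apply]
      fin_cases a <;> fin_cases b <;>
        simp [lower, Matrix.SpecialLinearGroup.transvection_coe, hn]
    · exact absurd rfl hij
  | hmul A B hA hB =>
    obtain ⟨x, rfl⟩ := hA
    obtain ⟨y, rfl⟩ := hB
    exact ⟨x * y, map_mul _ _ _⟩

/-- `[G(M) : G(M ℓ)] = ℓ (ℓ - 1) (ℓ + 1)`. -/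
theorem index_congr_mul_eq {M : ℕ} (hℓ : ℓ.Prime) (h : Nat.Coprime q ℓ) (hM : Nat.Coprime M ℓ) :
    ((congr q (M * ℓ)).subgroupOf (congr q M)).index = ℓ * (ℓ - 1) * (ℓ + 1) := by
  have : Fact ℓ.Prime := ⟨hℓ⟩
  rw [← ker_redCongr h hM, Subgroup.index_ker,
    MonoidHom.range_eq_top.mpr (redCongr_surjective hℓ h hM), Subgroup.card_top, card_SL2_zmod ℓ]

end Fermat.Agent.LIhD
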