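/-
Cluster L (S41, level raising), WP IHARA, step (D') (Claim E).  Owner: helper8.

Wiring of Claim E: an invariant character `Ψ` of `G(M ℓ)` killing the unipotents extends to a
character of `G(M)` killing the unipotents, by the transfer from a subgroup `P ⊇ G(M ℓ)` of
`G(M)` of index prime to `p`:
* `P = G(M ℓ)` if `p ∤ ℓ (ℓ - 1) (ℓ + 1)` (Case A);
* `P = ρ⁻¹ ⟨σ⟩`, `σ` of order `3`, if `p = 3` and `ℓ ≡ 2 mod 9` (Case B).
-/
import Fermat.Agent.L.IharaD.Unip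
import Fermat.Agent.L.IharaD.CycExt
import Fermat.Agent.L.IharaD.SLCard

set_option autoImplicit false

noncomputable section

namespace Fermat.Agent.LIhD

open Matrix Fermat.Agent.LIh
open scoped MatrixGroups

variable {q p M ℓ : ℕ}

theorem psi_congr (Ψ : Additive (congr q (M * ℓ)) →+ ZMod p) {a b : Gq q} (hab : a = b)
    (ha : a ∈ congr q (M * ℓ)) :
    Ψ (Additive.ofMul ⟨a, ha⟩) = Ψ (Additive.ofMul ⟨b, hab ▸ ha⟩) := by
  subst hab; rfl

/-- The inclusion of `G(M ℓ)`, seen as a subgroup of `G(M)`, into `G(M ℓ)`. -/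
def kerIncl (q M ℓ : ℕ) : ((congr q (M * ℓ)).subgroupOf (congr q M)) →* congr q (M * ℓ) where
  toFun x := ⟨((x : congr q M) : Gq q), Subgroup.mem_subgroupOf.mp x.2⟩
  map_one' := rfl
  map_mul' _ _ := rfl

/-- The character `Ψ` of `G(M ℓ)`, seen on the subgroup `G(M ℓ)` of `G(M)`. -/
def psiKer (Ψ : Additive (congr q (M * ℓ)) →+ ZMod p) :
    Additive ((congr q (M * ℓ)).subgroupOf (congr q M)) →+ ZMod p :=
  Ψ.comp (MonoidHom.toAdditive (kerIncl q M ℓ))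

theorem psiKer_apply (Ψ : Additive (congr q (M * ℓ)) →+ ZMod p) (x : congr q M)
    (hx : x ∈ (congr q (M * ℓ)).subgroupOf (congr q M)) :
    psiKer Ψ (Additive.ofMul ⟨x, hx⟩) =
      Ψ (Additive.ofMul ⟨(x : Gq q), Subgroup.mem_subgroupOf.mp hx⟩) := rfl

theorem psiKer_invariant (Ψ : Additive (congr q (M * ℓ)) →+ ZMod p)
    (hinv : IsInvariant (congr q (M * ℓ)) Ψ) (t x : congr q M)
    (hx : x ∈ (congr q (M * ℓ)).subgroupOf (congr q M))
    (hx' : t⁻¹ * x * t ∈ (congr q (M * ℓ)).subgroupOf (congr q M)) :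
    psiKer Ψ (Additive.ofMul ⟨t⁻¹ * x * t, hx'⟩) = psiKer Ψ (Additive.ofMul ⟨x, hx⟩) := by
  rw [psiKer_apply, psiKer_apply]
  have h1 := hinv ((t : Gq q)⁻¹) ⟨(x : Gq q), Subgroup.mem_subgroupOf.mp hx⟩
  rw [← h1]
  refine psi_congr Ψ ?_ _
  simp

/-- Claim E, from a subgroup `P` of `G(M)` of index prime to `p` to which `Ψ` extends and whose
unipotent elements lie in `G(M ℓ)`. -/
theorem claimE_of_subgroup [Fact p.Prime] (hℓ : ℓ.Prime) (h : Nat.Coprime q ℓ)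
    (hM : Nat.Coprime M ℓ) (Ψ : Additive (congr q (M * ℓ)) →+ ZMod p)
    (hinv : IsInvariant (congr q (M * ℓ)) Ψ) (hkill : KillsUnip (congr q (M * ℓ)) Ψ)
    (P : Subgroup (congr q M)) (hHP : (congr q (M * ℓ)).subgroupOf (congr q M) ≤ P)
    (hidx : ¬ p ∣ P.index) (c : Additive P →+ ZMod p)
    (hc : ∀ (x : congr q M) (hx : x ∈ (congr q (M * ℓ)).subgroupOf (congr q M)),
      c (Additive.ofMul ⟨x, hHP hx⟩) = psiKer Ψ (Additive.ofMul ⟨x, hx⟩))
    (hunip : ∀ x : P, IsUnip ((x : congr q M) : Gq q) →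
      ((x : congr q M) : Gq q) ∈ congr q (M * ℓ)) :
    ∃ Ψ' : Additive (congr q M) →+ ZMod p, KillsUnip (congr q M) Ψ' ∧
      ∀ (x : Gq q) (hx : x ∈ congr q (M * ℓ)),
        Ψ' (Additive.ofMul ⟨x, congr_mul_le q M ℓ hx⟩) = Ψ (Additive.ofMul ⟨x, hx⟩) := by
  have : ((congr q (M * ℓ)).subgroupOf (congr q M)).FiniteIndex := finiteIndex_congr_mul hℓ h hM
  have : P.FiniteIndex := Subgroup.finiteIndex_of_le hHP
  have hN : ((congr q (M * ℓ)).subgroupOf (congr q M)).Normal := inferInstance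
  obtain ⟨c', hc1, hc2⟩ := exists_extension_of_invariant p P hidx
    ((congr q (M * ℓ)).subgroupOf (congr q M)) hHP c (fun t x hx => by
      rw [hc _ (hN.conj_mem' x hx t), hc _ hx]
      exact psiKer_invariant Ψ hinv t x hx _)
  refine ⟨c', ?_, ?_⟩
  · intro g hg
    apply hc2
    intro n t x _ hx
    have hxu : IsUnip ((x : congr q M) : Gq q) := by
      rw [hx]
      exact isUnipR_conj (isUnipR_pow hg n) (t : Gq q)
    have hxH : (x : congr q M) ∈ (congr q (M * ℓ)).subgroupOf (congr q M) :=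
      Subgroup.mem_subgroupOf.mpr (hunip x hxu)
    have h1 := hc (x : congr q M) hxH
    rw [psiKer_apply] at h1
    have h2 : (⟨(x : congr q M), hHP hxH⟩ : P) = x := rfl
    rw [h2] at h1
    rw [h1]
    exact hkill ⟨_, hunip x hxu⟩ hxu
  · intro x hx
    have hxH : (⟨x, congr_mul_le q M ℓ hx⟩ : congr q M) ∈
        (congr q (M * ℓ)).subgroupOf (congr q M) := Subgroup.mem_subgroupOf.mpr hx
    rw [hc1 _ hxH, hc _ hxH, psiKer_apply]

/-- **Claim E, Case A**: `p ∤ ℓ (ℓ - 1) (ℓ + 1)`. -/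
theorem claimE_caseA [Fact p.Prime] (hℓ : ℓ.Prime) (h : Nat.Coprime q ℓ)
    (hM : Nat.Coprime M ℓ) (hgood : ¬ p ∣ ℓ * (ℓ - 1) * (ℓ + 1))
    (Ψ : Additive (congr q (M * ℓ)) →+ ZMod p)
    (hinv : IsInvariant (congr q (M * ℓ)) Ψ) (hkill : KillsUnip (congr q (M * ℓ)) Ψ) :
    ∃ Ψ' : Additive (congr q M) →+ ZMod p, KillsUnip (congr q M) Ψ' ∧
      ∀ (x : Gq q) (hx : x ∈ congr q (M * ℓ)),
        Ψ' (Additive.ofMul ⟨x, congr_mul_le q M ℓ hx⟩) = Ψ (Additive.ofMul ⟨x, hx⟩) :=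
  claimE_of_subgroup hℓ h hM Ψ hinv hkill _ le_rfl (not_dvd_index_congr_mul hℓ h hM hgood)
    (psiKer Ψ) (fun _ _ => rfl) (fun x _ => Subgroup.mem_subgroupOf.mp x.2)

end Fermat.Agent.LIhD
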