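/-
Cluster L (S41, level raising), WP IHARA, step (D'), Claim E, piece E3.  Owner: helper73.

For a prime `ℓ ≠ 3` prime to `M q`: an element `s ∈ G(M)` whose reduction modulo `ℓ` is
`σ = [0, -1; 1, -1]` (order `3`, trace `-1`), and `w ∈ SL₂(ℤ[1/q])` whose reduction modulo `ℓ`
conjugates `σ` to `σ⁻¹`.
-/
import Fermat.Agent.L.IharaD.ZqRed
import Fermat.Agent.L.Ihara.B.Mat
import Mathlib.FieldTheory.Finite.Basic

set_option autoImplicit false
set_option linter.unusedSimpArgs false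

noncomputable section

namespace Fermat.Agent.LIhD

open Matrix Fermat.Agent.LIh
open scoped MatrixGroups

/-! ### entries of `u(A) l(C) u(B)` -/

theorem o3_ulu_00 (q : ℕ) (A C B : Zq q) :
    (upper q A * lower q C * upper q B) 0 0 = 1 + A * C := by
  simp only [LIhB.mul_apply2, LIhB.upper_00, LIhB.upper_01, LIhB.upper_10, LIhB.upper_11,
    LIhB.lower_00, LIhB.lower_01, LIhB.lower_10, LIhB.lower_11]
  ring

theorem o3_ulu_01 (q : ℕ) (A C B : Zq q) :
    (upper q A * lower q C * upper q B) 0 1 = (1 + A * C) * B + A := by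
  simp only [LIhB.mul_apply2, LIhB.upper_00, LIhB.upper_01, LIhB.upper_10, LIhB.upper_11,
    LIhB.lower_00, LIhB.lower_01, LIhB.lower_10, LIhB.lower_11]
  ring

theorem o3_ulu_10 (q : ℕ) (A C B : Zq q) :
    (upper q A * lower q C * upper q B) 1 0 = C := by
  simp only [LIhB.mul_apply2, LIhB.upper_00, LIhB.upper_01, LIhB.upper_10, LIhB.upper_11,
    LIhB.lower_00, LIhB.lower_01, LIhB.lower_10, LIhB.lower_11]
  ring

theorem o3_ulu_11 (q : ℕ) (A C B : Zq q) :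
    (upper q A * lower q C * upper q B) 1 1 = C * B + 1 := by
  simp only [LIhB.mul_apply2, LIhB.upper_00, LIhB.upper_01, LIhB.upper_10, LIhB.upper_11,
    LIhB.lower_00, LIhB.lower_01, LIhB.lower_10, LIhB.lower_11]
  ring

/-! ### matrices over a commutative ring -/

section ring

variable {R : Type*} [CommRing R]

theorem o3_ext {x y : SL(2, R)} (h00 : x 0 0 = y 0 0) (h01 : x 0 1 = y 0 1)
    (h10 : x 1 0 = y 1 0) (h11 : x 1 1 = y 1 1) : x = y := by
  apply Subtype.ext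
  ext i j
  fin_cases i <;> fin_cases j
  · exact h00
  · exact h01
  · exact h10
  · exact h11

theorem o3_mul_apply (x y : SL(2, R)) (i j : Fin 2) :
    (x * y) i j = x i 0 * y 0 j + x i 1 * y 1 j := by
  rw [Matrix.SpecialLinearGroup.coe_mul, Matrix.mul_apply, Fin.sum_univ_two]

/-- `σ = [0, -1; 1, -1]` has order dividing `3`. -/
theorem o3_pow_three {σ : SL(2, R)} (h00 : σ 0 0 = 0) (h01 : σ 0 1 = -1) (h10 : σ 1 0 = 1)
    (h11 : σ 1 1 = -1) : σ ^ 3 = 1 := by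
  rw [pow_succ, pow_two]
  apply o3_ext <;>
    simp only [o3_mul_apply, h00, h01, h10, h11, Matrix.SpecialLinearGroup.coe_one,
      Matrix.one_apply_eq, Matrix.one_apply_ne, ne_eq, zero_ne_one, one_ne_zero,
      not_false_eq_true, Fin.isValue] <;> ring

/-- `σ W σ = W` for `σ = [0, -1; 1, -1]`, `W = [y, x - y; x, -y]`. -/
theorem o3_conj {σ W : SL(2, R)} (x y : R) (h00 : σ 0 0 = 0) (h01 : σ 0 1 = -1)
    (h10 : σ 1 0 = 1) (h11 : σ 1 1 = -1) (w00 : W 0 0 = y) (w01 : W 0 1 = x - y)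
    (w10 : W 1 0 = x) (w11 : W 1 1 = -y) : W * σ * W⁻¹ = σ⁻¹ := by
  have key : σ * (W * σ) = W := by
    apply o3_ext <;>
      simp only [o3_mul_apply, h00, h01, h10, h11, w00, w01, w10, w11] <;> ring
  rw [mul_inv_eq_iff_eq_mul, eq_inv_mul_iff_mul_eq]
  exact key

end ring

/-! ### the norm equation `x² - x y + y² = -1` in `𝔽_ℓ`, `ℓ ≠ 3` -/

theorem o3_norm_eq (ℓ : ℕ) [Fact ℓ.Prime] (hℓ3 : ℓ ≠ 3) :
    ∃ x y : ZMod ℓ, x ≠ 0 ∧ x ^ 2 - x * y + y ^ 2 = -1 := by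
  have key : ∃ x y : ZMod ℓ, x ^ 2 - x * y + y ^ 2 = -1 := by
    by_cases h2 : ℓ = 2
    · subst h2
      refine ⟨1, 0, ?_⟩
      have h : (2 : ZMod 2) = 0 := by exact_mod_cast ZMod.natCast_self 2
      linear_combination h
    · have hchar : Fintype.card (ZMod ℓ) % 2 = 1 := by
        rw [ZMod.card]
        exact ((Fact.out : ℓ.Prime).eq_two_or_odd).resolve_left h2
      have h3 : (3 : ZMod ℓ) ≠ 0 := by
        intro h
        have h' : ((3 : ℕ) : ZMod ℓ) = 0 := by exact_mod_cast h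
        rw [ZMod.natCast_eq_zero_iff] at h'
        have := (Nat.prime_dvd_prime_iff_eq (Fact.out : ℓ.Prime) Nat.prime_three).mp h'
        exact hℓ3 this
      have hf : (Polynomial.X ^ 2 : Polynomial (ZMod ℓ)).degree = 2 := by
        rw [Polynomial.degree_X_pow]; rfl
      have hg : (Polynomial.C (3 : ZMod ℓ) * Polynomial.X ^ 2 + Polynomial.C 1 :
          Polynomial (ZMod ℓ)).degree = 2 := by
        rw [Polynomial.degree_add_C, Polynomial.degree_C_mul_X_pow _ h3]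
        · rfl
        · rw [Polynomial.degree_C_mul_X_pow _ h3]; decide
      obtain ⟨a, b, hab⟩ := FiniteField.exists_root_sum_quadratic hf hg hchar
      simp only [Polynomial.eval_pow, Polynomial.eval_X, Polynomial.eval_add,
        Polynomial.eval_mul, Polynomial.eval_C] at hab
      refine ⟨a + b, 2 * b, ?_⟩
      linear_combination hab
  obtain ⟨x, y, hxy⟩ := key
  by_cases hx : x = 0
  · subst hx
    refine ⟨y, 0, ?_, ?_⟩
    · rintro rfl
      have h1 : (0 : ZMod ℓ) = -1 := by simp at hxy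
      have h2 : (1 : ZMod ℓ) = 0 := by linear_combination h1
      exact one_ne_zero h2
    · linear_combination hxy
  · exact ⟨x, y, hx, hxy⟩

/-! ### reduction of `u(A) l(C) u(B)` with integer parameters -/

theorem o3_red_ulu (q ℓ : ℕ) (hq : Nat.Coprime q ℓ) (A C B : ℤ) :
    (redSL q ℓ hq (upper q (A : Zq q) * lower q (C : Zq q) * upper q (B : Zq q))) 0 0 =
        1 + (A : ZMod ℓ) * C ∧
    (redSL q ℓ hq (upper q (A : Zq q) * lower q (C : Zq q) * upper q (B : Zq q))) 0 1 =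
        (1 + (A : ZMod ℓ) * C) * B + A ∧
    (redSL q ℓ hq (upper q (A : Zq q) * lower q (C : Zq q) * upper q (B : Zq q))) 1 0 = C ∧
    (redSL q ℓ hq (upper q (A : Zq q) * lower q (C : Zq q) * upper q (B : Zq q))) 1 1 =
        (C : ZMod ℓ) * B + 1 := by
  refine ⟨?_, ?_, ?_, ?_⟩
  · rw [redSL_apply, o3_ulu_00]
    simp only [map_add, map_mul, map_one, redL_intCast]
  · rw [redSL_apply, o3_ulu_01]
    simp only [map_add, map_mul, map_one, redL_intCast]
  · rw [redSL_apply, o3_ulu_10]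
    simp only [redL_intCast]
  · rw [redSL_apply, o3_ulu_11]
    simp only [map_add, map_mul, map_one, redL_intCast]

/-- **(D'-E3)** An element `s ∈ G(M)` of order `3` modulo `ℓ` (reduction `[0, -1; 1, -1]`),
and `w` inverting it modulo `ℓ`. -/
theorem exists_order_three (q M ℓ : ℕ) (hq : Nat.Coprime q ℓ) (hM : Nat.Coprime M ℓ)
    (hℓ : ℓ.Prime) (hℓ3 : ℓ ≠ 3) :
    ∃ s w : Gq q, s ∈ congr q M ∧ (redSL q ℓ hq s) ^ 3 = 1 ∧
      ((redSL q ℓ hq s : SL(2, ZMod ℓ)) : Matrix (Fin 2) (Fin 2) (ZMod ℓ)).trace = -1 ∧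
      redSL q ℓ hq (w * s * w⁻¹) = (redSL q ℓ hq s)⁻¹ := by
  have : Fact ℓ.Prime := ⟨hℓ⟩
  -- `e ≡ 1 mod ℓ`, `M ∣ e`
  obtain ⟨u, hu⟩ := ZMod.intCast_surjective ((M : ZMod ℓ)⁻¹)
  have he1 : (((M : ℤ) * u : ℤ) : ZMod ℓ) = 1 := by
    push_cast
    rw [hu]
    exact ZMod.coe_mul_inv_eq_one M hM
  have heM : ∀ k : ℤ, (M : Zq q) ∣ ((k * ((M : ℤ) * u) : ℤ) : Zq q) := by
    intro k
    exact ⟨(k : Zq q) * (u : Zq q), by push_cast; ring⟩
  -- the norm equation and the lifts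
  obtain ⟨x, y, hx, hxy⟩ := o3_norm_eq ℓ hℓ3
  obtain ⟨a, ha⟩ := ZMod.intCast_surjective ((y - 1) / x)
  obtain ⟨c, hc⟩ := ZMod.intCast_surjective x
  obtain ⟨b, hb⟩ := ZMod.intCast_surjective ((-y - 1) / x)
  obtain ⟨s00, s01, s10, s11⟩ := o3_red_ulu q ℓ hq (-1 * ((M : ℤ) * u)) (1 * ((M : ℤ) * u))
    (-2 * ((M : ℤ) * u))
  obtain ⟨w00, w01, w10, w11⟩ := o3_red_ulu q ℓ hq a c b
  have e1 : ((-1 * ((M : ℤ) * u) : ℤ) : ZMod ℓ) = -1 := by
    rw [Int.cast_mul, he1]; simp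
  have e2 : ((1 * ((M : ℤ) * u) : ℤ) : ZMod ℓ) = 1 := by
    rw [Int.cast_mul, he1]; simp
  have e3 : ((-2 * ((M : ℤ) * u) : ℤ) : ZMod ℓ) = -2 := by
    rw [Int.cast_mul, he1]; simp
  simp only [e1, e2, e3] at s00 s01 s10 s11
  simp only [ha, hc, hb] at w00 w01 w10 w11
  have s00' : (redSL q ℓ hq (upper q ((-1 * ((M : ℤ) * u) : ℤ) : Zq q) *
      lower q ((1 * ((M : ℤ) * u) : ℤ) : Zq q) *
      upper q ((-2 * ((M : ℤ) * u) : ℤ) : Zq q))) 0 0 = 0 := by rw [s00]; ring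
  have s01' : (redSL q ℓ hq (upper q ((-1 * ((M : ℤ) * u) : ℤ) : Zq q) *
      lower q ((1 * ((M : ℤ) * u) : ℤ) : Zq q) *
      upper q ((-2 * ((M : ℤ) * u) : ℤ) : Zq q))) 0 1 = -1 := by rw [s01]; ring
  have s11' : (redSL q ℓ hq (upper q ((-1 * ((M : ℤ) * u) : ℤ) : Zq q) *
      lower q ((1 * ((M : ℤ) * u) : ℤ) : Zq q) *
      upper q ((-2 * ((M : ℤ) * u) : ℤ) : Zq q))) 1 1 = -1 := by rw [s11]; ring
  have w00' : (redSL q ℓ hq (upper q (a : Zq q) * lower q (c : Zq q) * upper q (b : Zq q)))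
      0 0 = y := by rw [w00]; field_simp; ring
  have w01' : (redSL q ℓ hq (upper q (a : Zq q) * lower q (c : Zq q) * upper q (b : Zq q)))
      0 1 = x - y := by
    rw [w01]; field_simp; linear_combination (-1 : ZMod ℓ) * hxy
  have w11' : (redSL q ℓ hq (upper q (a : Zq q) * lower q (c : Zq q) * upper q (b : Zq q)))
      1 1 = -y := by rw [w11]; field_simp; ring
  refine ⟨upper q ((-1 * ((M : ℤ) * u) : ℤ) : Zq q) * lower q ((1 * ((M : ℤ) * u) : ℤ) : Zq q) *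
      upper q ((-2 * ((M : ℤ) * u) : ℤ) : Zq q),
    upper q (a : Zq q) * lower q (c : Zq q) * upper q (b : Zq q), ?_, ?_, ?_, ?_⟩
  · apply LIhB.elem_le_congr
    exact (elem q M).mul_mem ((elem q M).mul_mem (LIhB.upper_mem_elem_of_dvd (heM _))
      (LIhB.lower_mem_elem_of_dvd (heM _))) (LIhB.upper_mem_elem_of_dvd (heM _))
  · exact o3_pow_three s00' s01' s10 s11'
  · rw [Matrix.trace_fin_two, s00', s11']; ring
  · rw [map_mul, map_mul, map_inv]
    exact o3_conj x y s00' s01' s10 s11' w00' w01' w10 w11'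

end Fermat.Agent.LIhD
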