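/-
Cluster L (S41, level raising), WP IHARA, step (D'), piece E5 of Claim E (`p = 3`).
Statement by helper8 (owner of (D')), proof by helper83.

`K = G(M ℓ)`, `Ψ : K → 𝔽₃` invariant under conjugation by `SL₂(ℤ[1/q])`.  If `s ∈ G(M)` has
`s³ ∈ K` and some `w` conjugates `s` to its inverse modulo `ℓ`, then `Ψ(s³) = 0`:
with `g = w s w⁻¹ = s⁻¹ h₀`, `h₀ = s g ∈ K`, we get
`g³ = (s³)⁻¹ (s² h₀ s⁻²) (s h₀ s⁻¹) h₀`, so `Ψ(s³) = Ψ(g³) = -Ψ(s³) + 3 Ψ(h₀) = -Ψ(s³)`.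
-/
import Fermat.Agent.L.IharaD.ZqRed

set_option autoImplicit false

noncomputable section

namespace Fermat.Agent.LIhD

open Matrix Fermat.Agent.LIh
open scoped MatrixGroups

section Ext

variable {q p : ℕ} (H : Subgroup (Gq q)) (Ψ : Additive H →+ ZMod p)

open Classical in
/-- Extension by zero of a character of a subgroup. -/
def extZero (x : Gq q) : ZMod p := if hx : x ∈ H then Ψ (Additive.ofMul ⟨x, hx⟩) else 0

theorem extZero_of_mem {x : Gq q} (hx : x ∈ H) : extZero H Ψ x = Ψ (Additive.ofMul ⟨x, hx⟩) := by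
  classical
  rw [extZero, dif_pos hx]

theorem extZero_mul {x y : Gq q} (hx : x ∈ H) (hy : y ∈ H) :
    extZero H Ψ (x * y) = extZero H Ψ x + extZero H Ψ y := by
  rw [extZero_of_mem H Ψ hx, extZero_of_mem H Ψ hy, extZero_of_mem H Ψ (mul_mem hx hy),
    ← map_add]
  rfl

theorem extZero_inv {x : Gq q} (hx : x ∈ H) : extZero H Ψ x⁻¹ = - extZero H Ψ x := by
  rw [extZero_of_mem H Ψ hx, extZero_of_mem H Ψ (inv_mem hx), ← map_neg]
  rfl

theorem extZero_conj [hH : H.Normal] (hinv : IsInvariant H Ψ) (g : Gq q) {x : Gq q}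
    (hx : x ∈ H) : extZero H Ψ (g * x * g⁻¹) = extZero H Ψ x := by
  rw [extZero_of_mem H Ψ hx, extZero_of_mem H Ψ (hH.conj_mem x hx g)]
  exact hinv g ⟨x, hx⟩

end Ext

set_option linter.unusedVariables false in
/-- **(E5)** the cube of an element of order `3` modulo `ℓ` which is conjugate to its inverse
modulo `ℓ` is killed by every invariant `𝔽₃`-character of `G(M ℓ)`. -/
theorem psi_cube_eq_zero (q M ℓ : ℕ) (hq : Nat.Coprime q ℓ) (hM : Nat.Coprime M ℓ)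
    (Ψ : Additive (congr q (M * ℓ)) →+ ZMod 3) (hinv : IsInvariant (congr q (M * ℓ)) Ψ)
    (s w : Gq q) (hs : s ∈ congr q M) (h3 : (redSL q ℓ hq s) ^ 3 = 1)
    (hw : redSL q ℓ hq (w * s * w⁻¹) = (redSL q ℓ hq s)⁻¹)
    (hs3 : s ^ 3 ∈ congr q (M * ℓ)) :
    Ψ (Additive.ofMul ⟨s ^ 3, hs3⟩) = 0 := by
  have hK : (congr q (M * ℓ)).Normal := congr_normal q (M * ℓ)
  -- `h₀ = s * (w s w⁻¹) ∈ K`
  have hg : w * s * w⁻¹ ∈ congr q M := (congr_normal q M).conj_mem s hs w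
  have hh0 : s * (w * s * w⁻¹) ∈ congr q (M * ℓ) := by
    rw [mem_congr_mul_iff q hM]
    refine ⟨mul_mem hs hg, ?_⟩
    rw [← redSL_eq_one_iff hq, map_mul, hw, mul_inv_cancel]
  set h0 : Gq q := s * (w * s * w⁻¹) with hh0def
  set F := extZero (congr q (M * ℓ)) Ψ with hF
  -- the four factors
  have e1 : (w * s * w⁻¹) ^ 3 = w * s ^ 3 * w⁻¹ := conj_pow
  have hgeq : w * s * w⁻¹ = s⁻¹ * h0 := by
    rw [hh0def]
    group
  have e2 : (w * s * w⁻¹) ^ 3 =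
      (s ^ 3)⁻¹ * (s ^ 2 * h0 * (s ^ 2)⁻¹) * (s * h0 * s⁻¹) * h0 := by
    rw [hgeq]
    simp [pow_succ, mul_assoc]
  have m1 : (s ^ 3)⁻¹ ∈ congr q (M * ℓ) := inv_mem hs3
  have m2 : s ^ 2 * h0 * (s ^ 2)⁻¹ ∈ congr q (M * ℓ) := hK.conj_mem h0 hh0 (s ^ 2)
  have m3 : s * h0 * s⁻¹ ∈ congr q (M * ℓ) := hK.conj_mem h0 hh0 s
  have v1 : F (w * s ^ 3 * w⁻¹) = F (s ^ 3) := extZero_conj _ Ψ hinv w hs3
  have v2 : F ((s ^ 3)⁻¹ * (s ^ 2 * h0 * (s ^ 2)⁻¹) * (s * h0 * s⁻¹) * h0) =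
      - F (s ^ 3) + F h0 + F h0 + F h0 := by
    rw [hF, extZero_mul _ Ψ (mul_mem (mul_mem m1 m2) m3) hh0,
      extZero_mul _ Ψ (mul_mem m1 m2) m3, extZero_mul _ Ψ m1 m2, extZero_inv _ Ψ hs3,
      extZero_conj _ Ψ hinv (s ^ 2) hh0, extZero_conj _ Ψ hinv s hh0]
  have v3 : F (s ^ 3) = - F (s ^ 3) + F h0 + F h0 + F h0 :=
    calc F (s ^ 3) = F (w * s ^ 3 * w⁻¹) := v1.symm
      _ = F ((w * s * w⁻¹) ^ 3) := by rw [e1]
      _ = - F (s ^ 3) + F h0 + F h0 + F h0 := by rw [e2, v2]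
  have v4 : F h0 + F h0 + F h0 = 0 := by
    have : F h0 + F h0 + F h0 = (3 : ZMod 3) * F h0 := by ring
    rw [this]
    have h30 : (3 : ZMod 3) = 0 := by decide
    rw [h30, zero_mul]
  have v5 : F (s ^ 3) + F (s ^ 3) = 0 := by
    have e : F (s ^ 3) + F (s ^ 3) = F h0 + F h0 + F h0 := by
      linear_combination v3
    rw [e, v4]
  have v6 : F (s ^ 3) = 0 := by
    have h2 : (2 : ZMod 3) * F (s ^ 3) = 0 := by
      rw [two_mul]
      exact v5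
    have hu : (2 : ZMod 3) * 2 = 1 := by decide
    calc F (s ^ 3) = (2 * 2) * F (s ^ 3) := by rw [hu, one_mul]
      _ = 2 * (2 * F (s ^ 3)) := by ring
      _ = 0 := by rw [h2, mul_zero]
  rw [← extZero_of_mem _ Ψ hs3]
  exact v6

end Fermat.Agent.LIhD
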