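import Fermat.Agent.L.IharaD.SLCard

/-!
# E6: an element of order three in `SL(2, ZMod ℓ)` (Claim E of the Hecke trick, `p = 3`)

For `σ ∈ SL(2, ZMod ℓ)` with `σ ^ 3 = 1` and trace `-1` (`ℓ ≠ 3`):
* `orderOf_eq_three`: `σ` has order exactly three;
* `eq_one_of_mem_zpowers_of_trace`: the only element of trace `2` in `⟨σ⟩` is `1`;
* `not_three_dvd_index_zpowers`: for `ℓ ≡ 2 mod 9`, the index of `⟨σ⟩` is prime to `3`.
-/

set_option autoImplicit false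

namespace Fermat.Agent.LIhD

open Matrix
open scoped MatrixGroups

/-- `3 ≠ 0` in `ZMod ℓ` for a prime `ℓ ≠ 3`. -/
theorem three_ne_zero_zmod {ℓ : ℕ} [Fact ℓ.Prime] (hℓ3 : ℓ ≠ 3) : (3 : ZMod ℓ) ≠ 0 := by
  intro h
  have h1 : ((3 : ℕ) : ZMod ℓ) = 0 := by exact_mod_cast h
  rw [ZMod.natCast_eq_zero_iff] at h1
  have h2 : ℓ = 3 := (Nat.prime_dvd_prime_iff_eq (Fact.out : ℓ.Prime) Nat.prime_three).1 h1
  exact hℓ3 h2

/-- In `ZMod ℓ`, `ℓ ≠ 3` prime, `-1 ≠ 2`. -/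
theorem neg_one_ne_two_zmod {ℓ : ℕ} [Fact ℓ.Prime] (hℓ3 : ℓ ≠ 3) : (-1 : ZMod ℓ) ≠ 2 := by
  intro h
  apply three_ne_zero_zmod hℓ3
  have : (3 : ZMod ℓ) = 2 - (-1) := by ring
  rw [this, h, sub_self]

/-- The trace of the identity of `SL(2, R)` is `2`. -/
theorem trace_one_SL2 {R : Type*} [CommRing R] :
    ((1 : SL(2, R)) : Matrix (Fin 2) (Fin 2) R).trace = 2 := by
  rw [Matrix.trace_fin_two]
  simp
  norm_num

/-- The trace of the inverse in `SL(2, R)` is the trace. -/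
theorem trace_inv_SL2 {R : Type*} [CommRing R] (σ : SL(2, R)) :
    ((σ⁻¹ : SL(2, R)) : Matrix (Fin 2) (Fin 2) R).trace =
      (σ : Matrix (Fin 2) (Fin 2) R).trace := by
  rw [Matrix.SpecialLinearGroup.coe_inv, Matrix.adjugate_fin_two]
  simp [Matrix.trace_fin_two, add_comm]

theorem sigma_ne_one {ℓ : ℕ} [Fact ℓ.Prime] (hℓ3 : ℓ ≠ 3) (σ : SL(2, ZMod ℓ))
    (htr : (σ : Matrix (Fin 2) (Fin 2) (ZMod ℓ)).trace = -1) : σ ≠ 1 := by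
  rintro rfl
  rw [trace_one_SL2] at htr
  exact neg_one_ne_two_zmod hℓ3 htr.symm

theorem orderOf_eq_three {ℓ : ℕ} [Fact ℓ.Prime] (hℓ3 : ℓ ≠ 3) (σ : SL(2, ZMod ℓ))
    (h3 : σ ^ 3 = 1) (htr : (σ : Matrix (Fin 2) (Fin 2) (ZMod ℓ)).trace = -1) : orderOf σ = 3 := by
  have : Fact (Nat.Prime 3) := ⟨Nat.prime_three⟩
  exact orderOf_eq_prime h3 (sigma_ne_one hℓ3 σ htr)

theorem eq_one_of_mem_zpowers_of_trace {ℓ : ℕ} [Fact ℓ.Prime] (hℓ3 : ℓ ≠ 3) (σ : SL(2, ZMod ℓ))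
    (h3 : σ ^ 3 = 1) (htr : (σ : Matrix (Fin 2) (Fin 2) (ZMod ℓ)).trace = -1)
    (x : SL(2, ZMod ℓ)) (hx : x ∈ Subgroup.zpowers σ)
    (hxtr : (x : Matrix (Fin 2) (Fin 2) (ZMod ℓ)).trace = 2) : x = 1 := by
  obtain ⟨k, rfl⟩ := Subgroup.mem_zpowers_iff.1 hx
  have h3z : σ ^ (3 : ℤ) = 1 := by
    have : σ ^ ((3 : ℕ) : ℤ) = 1 := by rw [zpow_natCast]; exact h3
    simpa using this
  have hk : σ ^ k = σ ^ (k % 3) := by
    conv_lhs => rw [← Int.mul_ediv_add_emod k 3]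
    rw [_root_.zpow_add, _root_.zpow_mul, h3z, _root_.one_zpow, one_mul]
  have hr0 : 0 ≤ k % 3 := Int.emod_nonneg k (by norm_num)
  have hr3 : k % 3 < 3 := Int.emod_lt_of_pos k (by norm_num)
  have hcases : k % 3 = 0 ∨ k % 3 = 1 ∨ k % 3 = 2 := by omega
  rcases hcases with h | h | h
  · rw [hk, h, zpow_zero]
  · exfalso
    rw [hk, h, zpow_one, htr] at hxtr
    exact neg_one_ne_two_zmod hℓ3 hxtr
  · exfalso
    have h2 : σ ^ (2 : ℤ) = σ⁻¹ := by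
      have h4 : σ ^ (2 : ℤ) * σ = 1 := by
        have : σ ^ (2 : ℤ) * σ = σ ^ (3 : ℤ) := by
          rw [show (3 : ℤ) = 2 + 1 by norm_num, _root_.zpow_add, zpow_one]
        rw [this, h3z]
      exact eq_inv_of_mul_eq_one_left h4
    rw [hk, h, h2, trace_inv_SL2, htr] at hxtr
    exact neg_one_ne_two_zmod hℓ3 hxtr

theorem not_three_dvd_index_zpowers {ℓ : ℕ} [Fact ℓ.Prime] (hℓ9 : ℓ % 9 = 2) (σ : SL(2, ZMod ℓ))
    (h3 : σ ^ 3 = 1) (htr : (σ : Matrix (Fin 2) (Fin 2) (ZMod ℓ)).trace = -1) :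
    ¬ 3 ∣ (Subgroup.zpowers σ).index := by
  have hℓ3 : ℓ ≠ 3 := by
    rintro rfl
    norm_num at hℓ9
  have hcard : Nat.card (Subgroup.zpowers σ) = 3 := by
    rw [Nat.card_zpowers, orderOf_eq_three hℓ3 σ h3 htr]
  have hmul := Subgroup.card_mul_index (Subgroup.zpowers σ)
  rw [hcard, card_SL2_zmod] at hmul
  rintro ⟨m, hm⟩
  rw [hm] at hmul
  obtain ⟨k, rfl⟩ : ∃ k, ℓ = 9 * k + 2 := ⟨ℓ / 9, by omega⟩
  have h1 : 9 * k + 2 - 1 = 9 * k + 1 := by omega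
  rw [h1] at hmul
  have h2 : (9 * k + 2) * (9 * k + 1) * (9 * k + 2 + 1)
      = 9 * (81 * k ^ 3 + 54 * k ^ 2 + 11 * k) + 6 := by ring
  rw [h2] at hmul
  omega

end Fermat.Agent.LIhD
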