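/-
Cluster L (S41, level raising), WP IHARA, step (D') (Claim E).  Owner: helper8.

**Claim E**, Case B (`p = 3`, `ℓ ≡ 2 mod 9`) and the final statement `claimE`.
Pieces: E3 `exists_order_three` (helper73), E5 `psi_cube_eq_zero` (helper83),
E6 `SigmaThree` (helper15), `SLCard` (helper45).
-/
import Fermat.Agent.L.IharaD.ClaimE
import Fermat.Agent.L.IharaD.OrderThree
import Fermat.Agent.L.IharaD.PsiCube
import Fermat.Agent.L.IharaD.SigmaThree

set_option autoImplicit false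

noncomputable section

namespace Fermat.Agent.LIhD

open Matrix Fermat.Agent.LIh
open scoped MatrixGroups

variable {q M ℓ : ℕ}

/-- **Claim E, Case B**: `p = 3`, `ℓ ≡ 2 mod 9`. -/
theorem claimE_caseB (hℓ : ℓ.Prime) (h : Nat.Coprime q ℓ) (hM : Nat.Coprime M ℓ)
    (hℓ9 : ℓ % 9 = 2) (Ψ : Additive (congr q (M * ℓ)) →+ ZMod 3)
    (hinv : IsInvariant (congr q (M * ℓ)) Ψ) (hkill : KillsUnip (congr q (M * ℓ)) Ψ) :
    ∃ Ψ' : Additive (congr q M) →+ ZMod 3, KillsUnip (congr q M) Ψ' ∧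
      ∀ (x : Gq q) (hx : x ∈ congr q (M * ℓ)),
        Ψ' (Additive.ofMul ⟨x, congr_mul_le q M ℓ hx⟩) = Ψ (Additive.ofMul ⟨x, hx⟩) := by
  have : Fact ℓ.Prime := ⟨hℓ⟩
  have : Fact (Nat.Prime 3) := ⟨Nat.prime_three⟩
  have hℓ3 : ℓ ≠ 3 := by rintro rfl; omega
  obtain ⟨s, w, hs, h3, htr, hw⟩ := exists_order_three q M ℓ h hM hℓ hℓ3
  have hs3 : s ^ 3 ∈ congr q (M * ℓ) :=
    (mem_congr_mul_iff q hM _).mpr ⟨Subgroup.pow_mem _ hs 3,
      (redSL_eq_one_iff h _).mp (by rw [map_pow]; exact h3)⟩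
  have hΨ3 := psi_cube_eq_zero q M ℓ h hM Ψ hinv s w hs h3 hw hs3
  have hord := orderOf_eq_three hℓ3 (redSL q ℓ h s) h3 htr
  -- the subgroup `P`
  have hHP : (congr q (M * ℓ)).subgroupOf (congr q M) ≤
      (Subgroup.zpowers (redSL q ℓ h s)).comap (redCongr q M ℓ h) := by
    intro x hx
    rw [← ker_redCongr h hM, MonoidHom.mem_ker] at hx
    rw [Subgroup.mem_comap, hx]
    exact Subgroup.one_mem _
  have hN : ((congr q (M * ℓ)).subgroupOf (congr q M)).Normal := inferInstance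
  have hρs : ∀ n : ℤ, redCongr q M ℓ h ((⟨s, hs⟩ : congr q M) ^ n) = (redSL q ℓ h s) ^ n := by
    intro n
    rw [map_zpow]
    rfl
  -- generation
  have hgen : ∀ x ∈ (Subgroup.zpowers (redSL q ℓ h s)).comap (redCongr q M ℓ h),
      ∃ n : ℤ, (⟨s, hs⟩ : congr q M) ^ n * x ∈ (congr q (M * ℓ)).subgroupOf (congr q M) := by
    intro x hx
    rw [Subgroup.mem_comap, Subgroup.mem_zpowers_iff] at hx
    obtain ⟨k, hk⟩ := hx
    refine ⟨-k, ?_⟩
    rw [← ker_redCongr h hM, MonoidHom.mem_ker, map_mul, hρs, ← hk, ← _root_.zpow_add, neg_add_cancel,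
      zpow_zero]
  -- powers of `s` in `H`
  have h3H : (⟨s, hs⟩ : congr q M) ^ 3 ∈ (congr q (M * ℓ)).subgroupOf (congr q M) :=
    Subgroup.mem_subgroupOf.mpr hs3
  have hs' : ∀ (n : ℤ) (hn : (⟨s, hs⟩ : congr q M) ^ n ∈
      (congr q (M * ℓ)).subgroupOf (congr q M)),
      psiKer Ψ (Additive.ofMul ⟨(⟨s, hs⟩ : congr q M) ^ n, hn⟩) = 0 := by
    intro n hn
    have h1 : (redSL q ℓ h s) ^ n = 1 := by
      rw [← hρs, ← MonoidHom.mem_ker, ker_redCongr h hM]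
      exact hn
    have h2 : ((orderOf (redSL q ℓ h s) : ℕ) : ℤ) ∣ n := orderOf_dvd_iff_zpow_eq_one.mpr h1
    rw [hord] at h2
    obtain ⟨k, rfl⟩ := h2
    have e : (⟨(⟨s, hs⟩ : congr q M) ^ ((3 : ℕ) * k : ℤ), hn⟩ :
        (congr q (M * ℓ)).subgroupOf (congr q M)) = (⟨(⟨s, hs⟩ : congr q M) ^ 3, h3H⟩ :
        (congr q (M * ℓ)).subgroupOf (congr q M)) ^ k := by
      apply Subtype.ext
      rw [Subgroup.coe_zpow]
      show (⟨s, hs⟩ : congr q M) ^ (((3 : ℕ) : ℤ) * k) = ((⟨s, hs⟩ : congr q M) ^ 3) ^ k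
      rw [_root_.zpow_mul, zpow_natCast]
    rw [e, ofMul_zpow, map_zsmul, psiKer_apply]
    have h4 : Ψ (Additive.ofMul ⟨(((⟨s, hs⟩ : congr q M) ^ 3 : congr q M) : Gq q),
        Subgroup.mem_subgroupOf.mp h3H⟩) = 0 := hΨ3
    rw [h4, smul_zero]
  obtain ⟨c, hc⟩ := exists_extension_cyclic
    ((Subgroup.zpowers (redSL q ℓ h s)).comap (redCongr q M ℓ h))
    ((congr q (M * ℓ)).subgroupOf (congr q M)) hHP ⟨s, hs⟩ hgen (psiKer Ψ)
    (fun t x hx => psiKer_invariant Ψ hinv t x hx _) hs'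
  -- index
  have hidx : ¬ 3 ∣ ((Subgroup.zpowers (redSL q ℓ h s)).comap (redCongr q M ℓ h)).index := by
    rw [Subgroup.index_comap_of_surjective _ (redCongr_surjective hℓ h hM)]
    exact not_three_dvd_index_zpowers hℓ9 _ h3 htr
  -- unipotents
  refine claimE_of_subgroup hℓ h hM Ψ hinv hkill _ hHP hidx c hc (fun x hx => ?_)
  have h1 : redCongr q M ℓ h (x : congr q M) ∈ Subgroup.zpowers (redSL q ℓ h s) := x.2
  have h2 : IsUnipR (redCongr q M ℓ h (x : congr q M)) := isUnipR_map (redL q ℓ h) hx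
  have h5 := eq_one_of_mem_zpowers_of_trace hℓ3 _ h3 htr _ h1 h2
  rw [← MonoidHom.mem_ker, ker_redCongr h hM] at h5
  exact Subgroup.mem_subgroupOf.mp h5

/-- **(D'-E) Claim E.** -/
theorem claimE (q p M ℓ : ℕ) : ClaimEStatement q p M ℓ := by
  intro hq hp _ _ _ hMq hℓ hℓMq hgood Ψ hinv hkill
  have : Fact p.Prime := ⟨hp⟩
  have hM : Nat.Coprime M ℓ := by
    rw [Nat.coprime_comm, Nat.Prime.coprime_iff_not_dvd hℓ]
    exact fun hd => hℓMq (Dvd.dvd.mul_right hd q)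
  have h : Nat.Coprime q ℓ := by
    rw [Nat.coprime_comm, Nat.Prime.coprime_iff_not_dvd hℓ]
    exact fun hd => hℓMq (Dvd.dvd.mul_left hd M)
  rcases hgood with hA | ⟨rfl, hB⟩
  · exact claimE_caseA hℓ h hM hA Ψ hinv hkill
  · exact claimE_caseB hℓ h hM hB Ψ hinv hkill

end Fermat.Agent.LIhD
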