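/-
Cluster L (S41, level raising), WP IHARA, step (D') = `LIh.CSPStatement`, unconditional.
Owner: helper8.  Pieces: (B) helper15/73/59, Lemma U + Hecke trick helper64, Steps 2-3 helper45,
Claim E helper8 (+ helper73 E3, helper15 E4/E6, helper83 E5, helper45 SLCard).
-/
import Fermat.Agent.L.IharaD.ClaimEB
import Fermat.Agent.L.IharaD.Main

set_option autoImplicit false

namespace Fermat.Agent.LIhD

/-- **(D')** the congruence subgroup property modulo `p` for `SL₂(ℤ[1/q])`: every character
`G(M) → 𝔽_p` killing `E(M)` is trivial. -/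
theorem cspStatement (q p M : ℕ) : Fermat.Agent.LIh.CSPStatement q p M :=
  cspStatement_of_claimE q p M (fun M' ℓ => claimE q p M' ℓ)

end Fermat.Agent.LIhD
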