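import Mathlib.LinearAlgebra.Matrix.GeneralLinearGroup.Card
import Mathlib.LinearAlgebra.Matrix.SpecialLinearGroup
import Mathlib.GroupTheory.Index
import Mathlib.Tactic

/-!
# E4: cardinality lemmas for `SL(2, ZMod ℓ)` (Claim E of the Hecke trick)

* `card_range_dvd`: the order of the image of a homomorphism to `SL(2, ZMod ℓ)` divides
  `(ℓ ^ 2 - 1) * (ℓ ^ 2 - ℓ)` (the order of `GL(2, ZMod ℓ)`).
* `not_nine_dvd`: for `ℓ ≡ 2 mod 9`, `9` does not divide that number.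
* `not_dvd_of_good`: a prime `p` not dividing `ℓ (ℓ - 1) (ℓ + 1)` does not divide it.
-/

namespace Fermat.Agent.LIhD

open Matrix
open scoped MatrixGroups

/-- The order of `GL(2, ZMod ℓ)`. -/
theorem card_GL_two_zmod (ℓ : ℕ) [Fact ℓ.Prime] :
    Nat.card (GL (Fin 2) (ZMod ℓ)) = (ℓ ^ 2 - 1) * (ℓ ^ 2 - ℓ) := by
  rw [Matrix.card_GL_field]
  simp [Fin.prod_univ_two, ZMod.card]

/-- The order of `SL(2, ZMod ℓ)` divides the order of `GL(2, ZMod ℓ)`. -/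
theorem card_SL_two_zmod_dvd (ℓ : ℕ) [Fact ℓ.Prime] :
    Nat.card (SL(2, ZMod ℓ)) ∣ (ℓ ^ 2 - 1) * (ℓ ^ 2 - ℓ) := by
  rw [← card_GL_two_zmod ℓ]
  exact Subgroup.card_dvd_of_injective
    (Matrix.SpecialLinearGroup.toGL (n := Fin 2) (R := ZMod ℓ))
    Matrix.SpecialLinearGroup.toGL_injective

theorem card_range_dvd {G : Type*} [Group G] (ℓ : ℕ) [Fact ℓ.Prime] (f : G →* SL(2, ZMod ℓ)) :
    Nat.card f.range ∣ (ℓ ^ 2 - 1) * (ℓ ^ 2 - ℓ) :=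
  (Subgroup.card_subgroup_dvd_card f.range).trans (card_SL_two_zmod_dvd ℓ)

theorem not_nine_dvd (ℓ : ℕ) (h : ℓ % 9 = 2) : ¬ 9 ∣ (ℓ ^ 2 - 1) * (ℓ ^ 2 - ℓ) := by
  obtain ⟨k, rfl⟩ : ∃ k, ℓ = 9 * k + 2 := ⟨ℓ / 9, by omega⟩
  have h1 : (9 * k + 2) ^ 2 - 1 = 9 * (9 * k ^ 2 + 4 * k) + 3 := by
    have : (9 * k + 2) ^ 2 = 9 * (9 * k ^ 2 + 4 * k) + 3 + 1 := by ring
    omega
  have h2 : (9 * k + 2) ^ 2 - (9 * k + 2) = 9 * (9 * k ^ 2 + 3 * k) + 2 := by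
    have : (9 * k + 2) ^ 2 = 9 * (9 * k ^ 2 + 3 * k) + 2 + (9 * k + 2) := by ring
    omega
  rw [h1, h2]
  intro hd
  have h3 : (9 * (9 * k ^ 2 + 4 * k) + 3) * (9 * (9 * k ^ 2 + 3 * k) + 2)
      = 9 * ((9 * k ^ 2 + 4 * k) * (9 * (9 * k ^ 2 + 3 * k) + 2) + 3 * (9 * k ^ 2 + 3 * k)) + 6 := by
    ring
  rw [h3] at hd
  omega

theorem not_dvd_of_good (p ℓ : ℕ) (hp : p.Prime) (hℓ : ℓ.Prime)
    (h : ¬ p ∣ ℓ * (ℓ - 1) * (ℓ + 1)) : ¬ p ∣ (ℓ ^ 2 - 1) * (ℓ ^ 2 - ℓ) := by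
  have hℓ1 : 1 ≤ ℓ := hℓ.one_lt.le
  obtain ⟨m, rfl⟩ : ∃ m, ℓ = m + 1 := ⟨ℓ - 1, by omega⟩
  have h1 : (m + 1) ^ 2 - 1 = m * (m + 1 + 1) := by
    have : (m + 1) ^ 2 = m * (m + 1 + 1) + 1 := by ring
    omega
  have h2 : (m + 1) ^ 2 - (m + 1) = (m + 1) * m := by
    have : (m + 1) ^ 2 = (m + 1) * m + (m + 1) := by ring
    omega
  rw [h1, h2]
  simp only [Nat.add_sub_cancel] at h
  intro hd
  apply h
  rcases (Nat.Prime.dvd_mul hp).1 hd with h3 | h3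
  · rcases (Nat.Prime.dvd_mul hp).1 h3 with h4 | h4
    · exact Dvd.dvd.mul_right (Dvd.dvd.mul_left h4 _) _
    · exact Dvd.dvd.mul_left h4 _
  · rcases (Nat.Prime.dvd_mul hp).1 h3 with h4 | h4
    · exact Dvd.dvd.mul_right (Dvd.dvd.mul_right h4 _) _
    · exact Dvd.dvd.mul_right (Dvd.dvd.mul_left h4 _) _

end Fermat.Agent.LIhD
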