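import Fermat.Agent.L.IharaD.HeckeIface
import Mathlib.NumberTheory.LSeries.PrimesInAP

/-!
# Cluster L / IHARA / (D'), Step 3: arithmetic of `ℤ[1/q]` and Dirichlet (helper45)

Main result `exists_prime_row`: if `(a, β)` is a unimodular row of `ℤ[1/q]` and `p ∤ a`, then
there are a prime `l` (as large as we like, `l ≡ 2 mod p²`), `m : ℕ` and `t : ℤ[1/q]` with
`q ^ (2 m) * (β + t * a) = l`.
-/

set_option autoImplicit false

noncomputable section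

namespace Fermat.Agent.LIhS

open Fermat.Agent.LIh Matrix
open scoped MatrixGroups

/-- `ℤ → ℤ[1/q]` is injective for `q ≠ 0`. -/
theorem s23_intCast_injective (q : ℕ) (hq : q ≠ 0) :
    Function.Injective (fun n : ℤ => (n : Zq q)) := by
  have hinj : Function.Injective (algebraMap ℤ (Zq q)) := by
    apply IsLocalization.injective (Zq q) (M := Submonoid.powers (q : ℤ))
    apply powers_le_nonZeroDivisors_of_noZeroDivisors
    exact_mod_cast hq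
  intro a b hab
  apply hinj
  simpa [eq_intCast] using hab

/-- every element of `ℤ[1/q]` has the form `n / q ^ k`. -/
theorem s23_surj (q : ℕ) (z : Zq q) : ∃ (k : ℕ) (n : ℤ), z * (q : Zq q) ^ k = (n : Zq q) := by
  obtain ⟨k, n, h⟩ := IsLocalization.Away.surj (x := (q : ℤ)) (S := Zq q) z
  refine ⟨k, n, ?_⟩
  simpa [eq_intCast] using h

/-- a denominator exponent may be enlarged. -/
theorem s23_surj_ge (q : ℕ) (z : Zq q) (K : ℕ) :
    ∃ (k : ℕ) (n : ℤ), K ≤ k ∧ z * (q : Zq q) ^ k = (n : Zq q) := by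
  obtain ⟨k, n, h⟩ := s23_surj q z
  refine ⟨k + K, n * (q : ℤ) ^ K, Nat.le_add_left _ _, ?_⟩
  rw [pow_add, ← mul_assoc, h]
  push_cast
  ring

theorem s23_q_pow_mul_invq_pow (q k : ℕ) : (q : Zq q) ^ k * invq q ^ k = 1 := by
  rw [← mul_pow, q_mul_invq, one_pow]

/-- a prime `p ≠ q` is not a unit of `ℤ[1/q]`. -/
theorem s23_not_dvd_one {q p : ℕ} (hq : q.Prime) (hp : p.Prime) (hqp : q ≠ p) :
    ¬ (p : Zq q) ∣ 1 := by
  rintro ⟨z, hz⟩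
  obtain ⟨k, n, hn⟩ := s23_surj q z
  have h1 : ((p : ℤ) * n : ℤ) = ((q : ℤ) ^ k : ℤ) := by
    apply s23_intCast_injective q hq.ne_zero
    simp only
    push_cast
    rw [← hn, ← mul_assoc, ← hz, one_mul]
  have h2 : (p : ℤ) ∣ (q : ℤ) ^ k := ⟨n, h1.symm⟩
  have h3 : p ∣ q ^ k := by exact_mod_cast h2
  have h4 : p ∣ q := hp.dvd_of_dvd_pow h3
  exact hqp ((Nat.prime_dvd_prime_iff_eq hp hq).1 h4).symm

/-- In a unimodular row `(a, b)` one of `a`, `a + b` is not divisible by `p`. -/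
theorem s23_exists_shift {q p : ℕ} (hq : q.Prime) (hp : p.Prime) (hqp : q ≠ p)
    (a b r₁ r₂ : Zq q) (h : r₁ * a + r₂ * b = 1) :
    ∃ s : Zq q, ¬ (p : Zq q) ∣ a + s * b := by
  by_cases h0 : (p : Zq q) ∣ a
  · refine ⟨1, fun h1 => ?_⟩
    rw [one_mul] at h1
    have hb : (p : Zq q) ∣ b := (dvd_add_right h0).1 h1
    apply s23_not_dvd_one hq hp hqp
    rw [← h]
    exact dvd_add (Dvd.dvd.mul_left h0 _) (Dvd.dvd.mul_left hb _)
  · exact ⟨0, by simpa using h0⟩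

/-- coprimality from an integer Bezout relation with right hand side a power of `q`. -/
theorem s23_coprime_of_bezout {q : ℕ} (hq : q.Prime) (a₀ B u v : ℤ) (E : ℕ)
    (hqa : ¬ (q : ℤ) ∣ a₀) (h : u * a₀ + v * B = (q : ℤ) ^ E) :
    Nat.Coprime a₀.natAbs B.natAbs := by
  rw [Nat.coprime_iff_gcd_eq_one]
  by_contra hne
  obtain ⟨r, hr, hrd⟩ := Nat.exists_prime_and_dvd hne
  have hra : (r : ℤ) ∣ a₀ := Int.natCast_dvd.2 (hrd.trans (Nat.gcd_dvd_left _ _))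
  have hrB : (r : ℤ) ∣ B := Int.natCast_dvd.2 (hrd.trans (Nat.gcd_dvd_right _ _))
  have h1 : (r : ℤ) ∣ (q : ℤ) ^ E := by
    rw [← h]
    exact dvd_add (Dvd.dvd.mul_left hra _) (Dvd.dvd.mul_left hrB _)
  have h2 : r ∣ q ^ E := by exact_mod_cast h1
  have h3 : r ∣ q := hr.dvd_of_dvd_pow h2
  have h4 : r = q := (Nat.prime_dvd_prime_iff_eq hr hq).1 h3
  exact hqa (h4 ▸ hra)

/-- Dirichlet with two congruence conditions: a prime `l > n₀`, `l ≡ B mod a₀`, `l ≡ 2 mod p²`. -/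
theorem s23_dirichlet {p : ℕ} (hp : p.Prime) (hp2 : p ≠ 2) (a₀ B : ℤ) (ha₀ : a₀ ≠ 0)
    (hcop : Nat.Coprime a₀.natAbs B.natAbs) (hpa : ¬ (p : ℤ) ∣ a₀) (n₀ : ℕ) :
    ∃ l : ℕ, n₀ < l ∧ l.Prime ∧ l ≡ 2 [MOD p ^ 2] ∧ ∃ k : ℤ, (l : ℤ) = B + k * a₀ := by
  have hA : a₀.natAbs ≠ 0 := Int.natAbs_ne_zero.2 ha₀
  have hpA : ¬ p ∣ a₀.natAbs := fun h => hpa (Int.natCast_dvd.2 h)
  have hcopAp : Nat.Coprime a₀.natAbs (p ^ 2) :=
    Nat.Coprime.pow_right 2 ((Nat.Prime.coprime_iff_not_dvd hp).2 hpA).symm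
  -- residue of `B` modulo `|a₀|`
  set b : ℕ := (B % (a₀.natAbs : ℤ)).toNat with hb
  have hbB : ((b : ℕ) : ℤ) = B % (a₀.natAbs : ℤ) := by
    rw [hb]
    exact Int.toNat_of_nonneg (Int.emod_nonneg _ (by exact_mod_cast hA))
  obtain ⟨c, hc1, hc2⟩ := Nat.chineseRemainder hcopAp b 2
  -- `c` is coprime to the modulus
  have hcA : Nat.Coprime c a₀.natAbs := by
    rw [Nat.coprime_iff_gcd_eq_one]
    by_contra hne
    obtain ⟨r, hr, hrd⟩ := Nat.exists_prime_and_dvd hne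
    have hrc : r ∣ c := hrd.trans (Nat.gcd_dvd_left _ _)
    have hrA : r ∣ a₀.natAbs := hrd.trans (Nat.gcd_dvd_right _ _)
    have h2 : (c : ℤ) ≡ B [ZMOD (a₀.natAbs : ℤ)] := by
      refine (Int.natCast_modEq_iff.2 hc1).trans ?_
      rw [hbB]
      exact Int.mod_modEq _ _
    have h3 : ((a₀.natAbs : ℕ) : ℤ) ∣ (c : ℤ) - B := Int.modEq_iff_dvd.1 h2.symm
    have h4 : (r : ℤ) ∣ B := by
      have h41 : (r : ℤ) ∣ (c : ℤ) - B := (Int.natCast_dvd_natCast.2 hrA).trans h3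
      have h42 : (r : ℤ) ∣ (c : ℤ) := Int.natCast_dvd_natCast.2 hrc
      have h43 := dvd_sub h42 h41
      simpa using h43
    have h5 : r ∣ B.natAbs := Int.natCast_dvd.1 h4
    have h6 : r ∣ Nat.gcd a₀.natAbs B.natAbs := Nat.dvd_gcd hrA h5
    rw [Nat.coprime_iff_gcd_eq_one.1 hcop] at h6
    exact hr.one_lt.ne' (Nat.dvd_one.1 h6)
  have hcp : Nat.Coprime c (p ^ 2) := by
    have h1 : Nat.gcd c (p ^ 2) = Nat.gcd 2 (p ^ 2) := Nat.ModEq.gcd_eq hc2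
    rw [Nat.coprime_iff_gcd_eq_one, h1]
    apply Nat.Coprime.pow_right
    exact (Nat.coprime_primes Nat.prime_two hp).2 (Ne.symm hp2)
  have hcQ : Nat.Coprime c (a₀.natAbs * p ^ 2) := Nat.Coprime.mul_right hcA hcp
  have hQ : a₀.natAbs * p ^ 2 ≠ 0 := Nat.mul_ne_zero hA (pow_ne_zero _ hp.ne_zero)
  obtain ⟨l, hl, hlp, hlc⟩ := Nat.forall_exists_prime_gt_and_modEq n₀ hQ hcQ
  refine ⟨l, hl, hlp, ?_, ?_⟩
  · exact ((Nat.ModEq.of_mul_left _ hlc)).trans hc2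
  · have h1 : l ≡ b [MOD a₀.natAbs] := ((Nat.ModEq.of_mul_right _ hlc)).trans hc1
    have h2 : (l : ℤ) ≡ (b : ℤ) [ZMOD (a₀.natAbs : ℤ)] := Int.natCast_modEq_iff.2 h1
    have h3 : (l : ℤ) ≡ B [ZMOD (a₀.natAbs : ℤ)] := by
      refine h2.trans ?_
      rw [hbB]
      exact Int.mod_modEq _ _
    have h4 : (a₀.natAbs : ℤ) ∣ (l : ℤ) - B := (Int.modEq_iff_dvd.1 h3.symm)
    have h5 : a₀ ∣ (l : ℤ) - B := (Int.natAbs_dvd).1 h4
    obtain ⟨k, hk⟩ := h5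
    exact ⟨k, by linarith [hk, mul_comm a₀ k]⟩

/-- **Step 3, arithmetic core.** For a unimodular row `(a, β)` of `ℤ[1/q]` with `p ∤ a` there
are a prime `l > n₀`, `l ≡ 2 mod p²`, and `m`, `t` with `q ^ (2 m) * (β + t * a) = l`. -/
theorem s23_exists_prime_row {q p : ℕ} (hq : q.Prime) (hp : p.Prime) (hp2 : p ≠ 2)
    (a β r₁ r₂ : Zq q) (h : r₁ * a + r₂ * β = 1) (hpa : ¬ (p : Zq q) ∣ a) (n₀ : ℕ) :
    ∃ l : ℕ, n₀ < l ∧ l.Prime ∧ l ≡ 2 [MOD p ^ 2] ∧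
      ∃ (m : ℕ) (t : Zq q), (q : Zq q) ^ (2 * m) * (β + t * a) = (l : Zq q) := by
  obtain ⟨ka, n, hn⟩ := s23_surj q a
  obtain ⟨m, B₀, hB₀⟩ := s23_surj q β
  obtain ⟨k₁, R₁, hR₁⟩ := s23_surj q r₁
  obtain ⟨k₂, R₂, hR₂⟩ := s23_surj q r₂
  have hinj := s23_intCast_injective q hq.ne_zero
  have ha0 : a ≠ 0 := by
    rintro rfl
    exact hpa (dvd_zero _)
  have hn0 : n ≠ 0 := by
    rintro rfl
    apply ha0
    have h1 : a * (q : Zq q) ^ ka * invq q ^ ka = 0 := by rw [hn]; simp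
    rwa [mul_assoc, s23_q_pow_mul_invq_pow, mul_one] at h1
  have hfin : FiniteMultiplicity (q : ℤ) n :=
    Int.finiteMultiplicity_iff.2 ⟨by simpa using hq.ne_one, hn0⟩
  obtain ⟨a₀, hna₀, hqa₀⟩ := hfin.exists_eq_pow_mul_and_not_dvd
  set j : ℕ := multiplicity (q : ℤ) n with hj
  have ha₀0 : a₀ ≠ 0 := by
    rintro rfl
    exact hn0 (by rw [hna₀, mul_zero])
  -- `B = q ^ (2 m) β`
  set B : ℤ := (q : ℤ) ^ m * B₀ with hBdef
  have hB : (q : Zq q) ^ (2 * m) * β = (B : Zq q) := by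
    rw [hBdef, two_mul, pow_add]
    push_cast
    rw [← hB₀]
    ring
  -- `a = q ^ j a₀ / q ^ ka`
  have hcast : a * (q : Zq q) ^ ka = (q : Zq q) ^ j * (a₀ : Zq q) := by
    rw [hn, hna₀]
    push_cast
    ring
  -- `p ∤ a₀`
  have hpa₀ : ¬ (p : ℤ) ∣ a₀ := by
    rintro ⟨c, hc⟩
    apply hpa
    refine ⟨(q : Zq q) ^ j * (c : Zq q) * invq q ^ ka, ?_⟩
    have h1 : a = a * (q : Zq q) ^ ka * invq q ^ ka := by
      rw [mul_assoc, s23_q_pow_mul_invq_pow, mul_one]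
    rw [h1, hcast, hc]
    push_cast
    ring
  -- coprimality of `a₀` and `B`
  have hcop : Nat.Coprime a₀.natAbs B.natAbs := by
    apply s23_coprime_of_bezout hq a₀ B (R₁ * (q : ℤ) ^ j * (q : ℤ) ^ (k₂ + 2 * m))
      (R₂ * (q : ℤ) ^ (k₁ + ka)) (k₁ + ka + k₂ + 2 * m) hqa₀
    apply hinj
    simp only
    push_cast
    rw [← hB, ← hR₁, ← hR₂]
    have h2 : (q : Zq q) ^ j * (a₀ : Zq q) = a * (q : Zq q) ^ ka := hcast.symm
    calc r₁ * (q : Zq q) ^ k₁ * (q : Zq q) ^ j * (q : Zq q) ^ (k₂ + 2 * m) * (a₀ : Zq q)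
          + r₂ * (q : Zq q) ^ k₂ * (q : Zq q) ^ (k₁ + ka) * ((q : Zq q) ^ (2 * m) * β)
        = r₁ * (q : Zq q) ^ k₁ * (q : Zq q) ^ (k₂ + 2 * m) * ((q : Zq q) ^ j * (a₀ : Zq q))
          + r₂ * (q : Zq q) ^ k₂ * (q : Zq q) ^ (k₁ + ka) * ((q : Zq q) ^ (2 * m) * β) := by
          ring
      _ = (r₁ * a + r₂ * β) * (q : Zq q) ^ (k₁ + ka + k₂ + 2 * m) := by
          rw [h2]
          ring
      _ = (q : Zq q) ^ (k₁ + ka + k₂ + 2 * m) := by rw [h, one_mul]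
  obtain ⟨l, hl, hlp, hl2, k, hk⟩ := s23_dirichlet hp hp2 a₀ B ha₀0 hcop hpa₀ n₀
  refine ⟨l, hl, hlp, hl2, m, (k : Zq q) * (q : Zq q) ^ ka * invq q ^ j * invq q ^ (2 * m), ?_⟩
  have h3 : ((l : ℤ) : Zq q) = (B : Zq q) + (k : Zq q) * (a₀ : Zq q) := by
    rw [hk]
    push_cast
    ring
  have h4 : (q : Zq q) ^ (2 * m) * invq q ^ (2 * m) = 1 := s23_q_pow_mul_invq_pow q _
  have h5 : (q : Zq q) ^ j * invq q ^ j = 1 := s23_q_pow_mul_invq_pow q _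
  calc (q : Zq q) ^ (2 * m) *
        (β + (k : Zq q) * (q : Zq q) ^ ka * invq q ^ j * invq q ^ (2 * m) * a)
      = (q : Zq q) ^ (2 * m) * β
        + (k : Zq q) * ((q : Zq q) ^ (2 * m) * invq q ^ (2 * m)) * invq q ^ j
          * (a * (q : Zq q) ^ ka) := by ring
    _ = (B : Zq q) + (k : Zq q) * ((q : Zq q) ^ j * invq q ^ j) * (a₀ : Zq q) := by
        rw [hB, h4, hcast]
        ring
    _ = ((l : ℤ) : Zq q) := by rw [h5, h3]; ring
    _ = (l : Zq q) := by push_cast; rfl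

end Fermat.Agent.LIhS
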