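/-
Cluster L (S41, level raising), WP IHARA, step (D'), piece D'-S Step 2 (evaluation at `b = M`).
Owner: helper64 (statement: helper45).

If `Φ (D x D⁻¹) = Ψ x` on `K` (Hecke trick) with `Ψ` killing `E(M)`, then `Φ y = 0` for every
`y ∈ G(M)` with `y₀₁ = l M`.
-/
import Fermat.Agent.L.IharaD.HeckeIface
import Fermat.Agent.L.Ihara.LemmaU

set_option autoImplicit false

noncomputable section

namespace Fermat.Agent.LIhS

open Fermat.Agent.LIh Matrix
open scoped MatrixGroups

/-- An element of `G(M)` with first row `(1, M)` lies in `E(M)`. -/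
theorem mem_elem_of_first_row {q M : ℕ} (z : Gq q) (hz : z ∈ congr q M)
    (h00 : z 0 0 = 1) (h01 : z 0 1 = (M : Zq q)) : z ∈ elem q M := by
  have hdet : z 0 0 * z 1 1 - z 0 1 * z 1 0 = 1 := by
    have := z.2
    rwa [Matrix.det_fin_two] at this
  have hu : upper q ((M : Zq q) * 1) ∈ elem q M :=
    Subgroup.subset_normalClosure ⟨1, rfl⟩
  have hl : lower q (z 1 0) ∈ elem q M := by
    apply Fermat.Agent.LIhU.mem_elem_of_trace_eq_two
    · rw [mem_congr]
      intro i j
      have h10 := (mem_congr.mp hz) 1 0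
      fin_cases i <;> fin_cases j
      · simp [lower]
      · simp [lower]
      · simpa [lower] using h10
      · simp [lower]
    · simp [lower]; norm_num
  have hz' : z = lower q (z 1 0) * upper q ((M : Zq q) * 1) := by
    apply Subtype.ext
    rw [Matrix.SpecialLinearGroup.coe_mul]
    show (z : Matrix (Fin 2) (Fin 2) (Zq q)) = !![1, 0; z 1 0, 1] * !![1, (M : Zq q) * 1; 0, 1]
    rw [Matrix.mul_fin_two, Matrix.eta_fin_two (z : Matrix (Fin 2) (Fin 2) (Zq q)), h00, h01]
    rw [h00, h01] at hdet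
    have h11 : z 1 1 = z 1 0 * ((M : Zq q) * 1) + 1 * 1 := by linear_combination hdet
    rw [h11]
    simp
  rw [hz']
  exact (elem q M).mul_mem hl hu

/-- **(D'-S), Step 2**: evaluation of the Hecke trick at `b = M`. -/
theorem s23_eval_of_psi {q p M : ℕ} (hq : q.Prime) (hp : p.Prime) (hqp : q ≠ p) (hM : 0 < M)
    (hMq : Nat.Coprime M q) (hB : LIh.CentralStatement q p M)
    (Φ Ψ : Additive (congr q M) →+ ZMod p) (l : ℕ)
    (hΨE : ∀ x : congr q M, (x : Gq q) ∈ elem q M → Ψ (Additive.ofMul x) = 0)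
    (hΨ : ∀ x y : congr q M,
        (y : Gq q) 0 0 = (x : Gq q) 0 0 → (y : Gq q) 1 1 = (x : Gq q) 1 1 →
        (y : Gq q) 0 1 = (l : Zq q) * (x : Gq q) 0 1 →
        (x : Gq q) 1 0 = (l : Zq q) * (y : Gq q) 1 0 →
        Φ (Additive.ofMul y) = Ψ (Additive.ofMul x))
    (y : congr q M) (hy : (y : Gq q) 0 1 = (l : Zq q) * (M : Zq q)) :
    Φ (Additive.ofMul y) = 0 := by
  have hydet : (y : Gq q) 0 0 * (y : Gq q) 1 1 - (y : Gq q) 0 1 * (y : Gq q) 1 0 = 1 := by
    have := (y : Gq q).2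
    rwa [Matrix.det_fin_two] at this
  have hymem := mem_congr.mp y.2
  -- the element `xx = [y₀₀, M; l y₁₀, y₁₁]`
  let xx : Gq q := ⟨!![(y : Gq q) 0 0, (M : Zq q); (l : Zq q) * (y : Gq q) 1 0, (y : Gq q) 1 1], by
    rw [Matrix.det_fin_two_of]
    rw [hy] at hydet
    linear_combination hydet⟩
  have hxx00 : xx 0 0 = (y : Gq q) 0 0 := rfl
  have hxx01 : xx 0 1 = (M : Zq q) := rfl
  have hxx10 : xx 1 0 = (l : Zq q) * (y : Gq q) 1 0 := rfl
  have hxx11 : xx 1 1 = (y : Gq q) 1 1 := rfl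
  have hxxmem : xx ∈ congr q M := by
    rw [mem_congr]
    intro i j
    fin_cases i <;> fin_cases j
    · simpa [hxx00] using hymem 0 0
    · simp [hxx01]
    · have h10 := hymem 1 0
      simp only [Fin.mk_one, Fin.isValue, Fin.zero_eta, hxx10, ne_eq, one_ne_zero,
        not_false_eq_true, Matrix.one_apply_ne, sub_zero] at h10 ⊢
      exact Dvd.dvd.mul_left h10 _
    · simpa [hxx11] using hymem 1 1
  have h1 : Φ (Additive.ofMul y) = Ψ (Additive.ofMul ⟨xx, hxxmem⟩) :=
    hΨ ⟨xx, hxxmem⟩ y hxx00.symm hxx11.symm (by rw [hy]; rfl) hxx10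
  rw [h1]
  -- `Ψ` is invariant
  have hinv := hB hq hp hqp hM hMq Ψ hΨE
  obtain ⟨a0, ha0⟩ : (M : Zq q) ∣ (y : Gq q) 0 0 - 1 := by
    simpa using hymem 0 0
  rw [← hinv (lower q a0) ⟨xx, hxxmem⟩]
  apply hΨE
  show lower q a0 * xx * (lower q a0)⁻¹ ∈ elem q M
  apply mem_elem_of_first_row
  · exact (congr_normal q M).conj_mem xx hxxmem _
  · rw [Matrix.SpecialLinearGroup.coe_mul, Matrix.SpecialLinearGroup.coe_mul,
      Matrix.SpecialLinearGroup.coe_inv, Matrix.adjugate_fin_two]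
    simp only [lower, Matrix.mul_apply, Fin.sum_univ_two, Matrix.of_apply, Matrix.cons_val',
      Matrix.cons_val_zero, Matrix.cons_val_fin_one, Matrix.cons_val_one, Fin.isValue,
      hxx00, hxx01]
    linear_combination ha0
  · rw [Matrix.SpecialLinearGroup.coe_mul, Matrix.SpecialLinearGroup.coe_mul,
      Matrix.SpecialLinearGroup.coe_inv, Matrix.adjugate_fin_two]
    simp only [lower, Matrix.mul_apply, Fin.sum_univ_two, Matrix.of_apply, Matrix.cons_val',
      Matrix.cons_val_zero, Matrix.cons_val_fin_one, Matrix.cons_val_one, Fin.isValue,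
      hxx00, hxx01]
    ring

end Fermat.Agent.LIhS
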