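import Fermat.Agent.L.IharaD.S23Moves
import Fermat.Agent.L.IharaD.S23Eval
import Fermat.Agent.L.Ihara.B.Main

/-!
# Cluster L / IHARA / (D'): Steps 2+3 assembled

* `csp_of_heckeTrick_of_central`: `CSPStatement q p M` from (B) `CentralStatement q p M` and
  Step 1 `HeckeTrick q p M` (Step 2 = `s23_eval_of_psi`, helper64; Step 3 = `s23_csp_of_eval`).
* `csp_of_heckeTrick`: the same with (B) discharged by `LIhB.centralStatement` (helper15/73).
-/

set_option autoImplicit false

noncomputable section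

namespace Fermat.Agent.LIhS

open Fermat.Agent.LIh Matrix
open scoped MatrixGroups

/-- **(D') Steps 2+3**: (B) + Hecke trick ⇒ CSP. -/
theorem csp_of_heckeTrick_of_central (q p M : ℕ) (hB : CentralStatement q p M)
    (hH : HeckeTrick q p M) : CSPStatement q p M := by
  intro hq hp hp2 hqp hM hMq Φ hE
  refine s23_csp_of_eval hq hp hp2 hqp hM Φ hE (hB hq hp hqp hM hMq Φ hE) ?_
  intro l hl hlM hlq hl2 y hy
  obtain ⟨Ψ, hΨE, hΨ⟩ := hH hq hp hp2 hqp hM hMq Φ hE l hl hlM hlq hl2
  exact s23_eval_of_psi hq hp hqp hM hMq hB Φ Ψ l hΨE hΨ y hy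

/-- **(D') Steps 2+3**, with (B) discharged: Hecke trick ⇒ CSP. -/
theorem csp_of_heckeTrick (q p M : ℕ) (hH : HeckeTrick q p M) : CSPStatement q p M :=
  csp_of_heckeTrick_of_central q p M (Fermat.Agent.LIhB.centralStatement q p M) hH

end Fermat.Agent.LIhS
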