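import Fermat.Agent.L.IharaD.S23Arith

/-!
# Cluster L / IHARA / (D'), Step 3: the moves on the first row and the reduction to the
evaluation lemma (helper45)

`s23_csp_of_eval`: if `Φ : G(M) → 𝔽_p` kills `E(M)`, is invariant under conjugation by
`SL₂(ℤ[1/q])` (this is (B_M)), and vanishes on all `y ∈ G(M)` with `y₀₁ = l M` for the good primes
`l` (`l ∤ M q`, `l ≡ 2 mod p²`; this is Step 2), then `Φ = 0`.
-/

set_option autoImplicit false

noncomputable section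

namespace Fermat.Agent.LIhS

open Fermat.Agent.LIh Matrix
open scoped MatrixGroups

/-- `diag(q^m, q^{-m})`. -/
def s23Diag (q m : ℕ) : Gq q :=
  ⟨!![(q : Zq q) ^ m, 0; 0, invq q ^ m], by
    rw [Matrix.det_fin_two_of]
    simp [s23_q_pow_mul_invq_pow]⟩

theorem s23_upper_coe (q : ℕ) (t : Zq q) :
    ((upper q t : Gq q) : Matrix (Fin 2) (Fin 2) (Zq q)) = !![1, t; 0, 1] := rfl

theorem s23_lower_coe (q : ℕ) (t : Zq q) :
    ((lower q t : Gq q) : Matrix (Fin 2) (Fin 2) (Zq q)) = !![1, 0; t, 1] := rfl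

theorem s23Diag_coe (q m : ℕ) :
    ((s23Diag q m : Gq q) : Matrix (Fin 2) (Fin 2) (Zq q)) =
      !![(q : Zq q) ^ m, 0; 0, invq q ^ m] := rfl

theorem s23_det (q : ℕ) (g : Gq q) : g 0 0 * g 1 1 - g 0 1 * g 1 0 = 1 := by
  have h := g.2
  rw [Matrix.det_fin_two] at h
  exact h

theorem s23_upper_mem_congr (q M : ℕ) (t : Zq q) : upper q ((M : Zq q) * t) ∈ congr q M := by
  rw [mem_congr]
  intro i j
  fin_cases i <;> fin_cases j <;> simp [s23_upper_coe]

theorem s23_upper_mem_elem (q M : ℕ) (t : Zq q) : upper q ((M : Zq q) * t) ∈ elem q M :=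
  Subgroup.subset_normalClosure ⟨t, rfl⟩

/-- first row of `l(-s) x l(-s)⁻¹`. -/
theorem s23_conj_lower (q : ℕ) (s : Zq q) (x : Gq q) :
    (lower q (-s) * x * (lower q (-s))⁻¹) 0 0 = x 0 0 + s * x 0 1 ∧
    (lower q (-s) * x * (lower q (-s))⁻¹) 0 1 = x 0 1 := by
  constructor
  · simp only [Matrix.SpecialLinearGroup.coe_mul, Matrix.SpecialLinearGroup.coe_inv,
      s23_lower_coe, Matrix.adjugate_fin_two, Matrix.mul_apply, Fin.sum_univ_two]
    simp
    ring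
  · simp only [Matrix.SpecialLinearGroup.coe_mul, Matrix.SpecialLinearGroup.coe_inv,
      s23_lower_coe, Matrix.adjugate_fin_two, Matrix.mul_apply, Fin.sum_univ_two]
    simp

/-- first row of `x u(t)`. -/
theorem s23_mul_upper (q : ℕ) (t : Zq q) (x : Gq q) :
    (x * upper q t) 0 0 = x 0 0 ∧ (x * upper q t) 0 1 = x 0 0 * t + x 0 1 := by
  constructor
  · simp only [Matrix.SpecialLinearGroup.coe_mul, s23_upper_coe, Matrix.mul_apply, Fin.sum_univ_two]
    simp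
  · simp only [Matrix.SpecialLinearGroup.coe_mul, s23_upper_coe, Matrix.mul_apply, Fin.sum_univ_two]
    simp

/-- the `(0,1)` entry of `h x h⁻¹`, `h = diag(q^m, q^{-m})`. -/
theorem s23_conj_diag (q m : ℕ) (x : Gq q) :
    (s23Diag q m * x * (s23Diag q m)⁻¹) 0 1 = (q : Zq q) ^ (2 * m) * x 0 1 := by
  simp only [Matrix.SpecialLinearGroup.coe_mul, Matrix.SpecialLinearGroup.coe_inv,
    s23Diag_coe, Matrix.adjugate_fin_two, Matrix.mul_apply, Fin.sum_univ_two]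
  simp
  ring

/-- **Step 3 of (D').**  A character of `G(M)` which kills `E(M)`, is invariant under conjugation
by `SL₂(ℤ[1/q])` and vanishes on the matrices with `(0,1)` entry `l M` (`l` a good prime)
is zero. -/
theorem s23_csp_of_eval {q p M : ℕ} (hq : q.Prime) (hp : p.Prime) (hp2 : p ≠ 2) (hqp : q ≠ p)
    (hM : 0 < M) (Φ : Additive (congr q M) →+ ZMod p)
    (hE : ∀ x : congr q M, (x : Gq q) ∈ elem q M → Φ (Additive.ofMul x) = 0)
    (hinv : ∀ (g : Gq q) (x : congr q M),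
      Φ (Additive.ofMul ⟨g * x * g⁻¹, (congr_normal q M).conj_mem x x.2 g⟩) =
        Φ (Additive.ofMul x))
    (heval : ∀ l : ℕ, l.Prime → ¬ l ∣ M → l ≠ q → l ≡ 2 [MOD p ^ 2] →
      ∀ y : congr q M, (y : Gq q) 0 1 = (l : Zq q) * (M : Zq q) → Φ (Additive.ofMul y) = 0) :
    Φ = 0 := by
  refine AddMonoidHom.ext fun x0 => ?_
  obtain ⟨x, rfl⟩ := Additive.ofMul.surjective x0
  rw [AddMonoidHom.zero_apply]
  -- `x₀₁ = M β`
  have hx01 : (M : Zq q) ∣ (x : Gq q) 0 1 := by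
    have h := (mem_congr.1 x.2) 0 1
    simpa using h
  obtain ⟨β, hβ⟩ := hx01
  have hdet := s23_det q (x : Gq q)
  -- make `p ∤ a`
  obtain ⟨s, hs⟩ := s23_exists_shift hq hp hqp ((x : Gq q) 0 0) ((x : Gq q) 0 1)
    ((x : Gq q) 1 1) (-((x : Gq q) 1 0)) (by linear_combination hdet)
  set x₁ : congr q M := ⟨lower q (-s) * x * (lower q (-s))⁻¹,
    (congr_normal q M).conj_mem x x.2 (lower q (-s))⟩ with hx₁
  have h1 : Φ (Additive.ofMul x₁) = Φ (Additive.ofMul x) := hinv (lower q (-s)) x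
  obtain ⟨h100, h101⟩ := s23_conj_lower q s (x : Gq q)
  have h100' : (x₁ : Gq q) 0 0 = (x : Gq q) 0 0 + s * (x : Gq q) 0 1 := h100
  have h101' : (x₁ : Gq q) 0 1 = (x : Gq q) 0 1 := h101
  have hdet1 := s23_det q (x₁ : Gq q)
  -- Dirichlet
  obtain ⟨l, hl, hlp, hl2, m, t, hlt⟩ := s23_exists_prime_row hq hp hp2 ((x₁ : Gq q) 0 0) β
    ((x₁ : Gq q) 1 1) (-((M : Zq q) * (x₁ : Gq q) 1 0))
    (by rw [h101', hβ] at hdet1; linear_combination hdet1)
    (by rw [h100']; exact hs) (max M q)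
  have hlM : ¬ l ∣ M := fun hd =>
    absurd (Nat.le_of_dvd hM hd) (not_le.2 (lt_of_le_of_lt (le_max_left M q) hl))
  have hlq : l ≠ q := fun hd => by
    have h5 : q < l := lt_of_le_of_lt (le_max_right M q) hl
    omega
  -- `x₂ = x₁ u(M t)`
  set u : congr q M := ⟨upper q ((M : Zq q) * t), s23_upper_mem_congr q M t⟩ with hu
  have h2 : Φ (Additive.ofMul (x₁ * u)) = Φ (Additive.ofMul x₁) := by
    rw [ofMul_mul, map_add, hE u (s23_upper_mem_elem q M t), add_zero]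
  obtain ⟨-, h201⟩ := s23_mul_upper q ((M : Zq q) * t) (x₁ : Gq q)
  have h201' : ((x₁ * u : congr q M) : Gq q) 0 1 =
      (x₁ : Gq q) 0 0 * ((M : Zq q) * t) + (x₁ : Gq q) 0 1 := h201
  -- `x₃ = h x₂ h⁻¹`
  set x₃ : congr q M := ⟨s23Diag q m * (x₁ * u : congr q M) * (s23Diag q m)⁻¹,
    (congr_normal q M).conj_mem _ (x₁ * u : congr q M).2 (s23Diag q m)⟩ with hx₃
  have h3 : Φ (Additive.ofMul x₃) = Φ (Additive.ofMul (x₁ * u)) := hinv (s23Diag q m) (x₁ * u)
  have h301 : (x₃ : Gq q) 0 1 = (l : Zq q) * (M : Zq q) := by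
    have h4 : (x₃ : Gq q) 0 1 = (q : Zq q) ^ (2 * m) * ((x₁ * u : congr q M) : Gq q) 0 1 :=
      s23_conj_diag q m _
    rw [h4, h201', h101', hβ, ← hlt]
    ring
  rw [← h1, ← h2, ← h3]
  exact heval l hlp hlM hlq hl2 x₃ h301

end Fermat.Agent.LIhS
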