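/-
Cluster L (S41, level raising), WP IHARA, step (D').  Owner: helper8.

Unipotent elements (trace `2`) of `SL₂` : stability under conjugation, powers, ring
homomorphisms; characters killing unipotents kill `E(M)`.
-/
import Fermat.Agent.L.IharaD.ZqRed
import Fermat.Agent.L.Ihara.LemmaU

set_option autoImplicit false

noncomputable section

namespace Fermat.Agent.LIhD

open Matrix Fermat.Agent.LIh
open scoped MatrixGroups

section General

variable {R : Type*} [CommRing R]

/-- trace `2` for elements of `SL₂(R)`. -/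
def IsUnipR (x : SL(2, R)) : Prop := (x : Matrix (Fin 2) (Fin 2) R).trace = 2

theorem isUnipR_iff (x : SL(2, R)) : IsUnipR x ↔ x 0 0 + x 1 1 = 2 := by
  rw [IsUnipR, Matrix.trace_fin_two]

theorem isUnipR_one : IsUnipR (1 : SL(2, R)) := by
  rw [isUnipR_iff]
  simp
  norm_num

theorem isUnipR_conj {x : SL(2, R)} (hx : IsUnipR x) (t : SL(2, R)) : IsUnipR (t⁻¹ * x * t) := by
  rw [IsUnipR] at hx ⊢
  rw [Matrix.SpecialLinearGroup.coe_mul, Matrix.SpecialLinearGroup.coe_mul, Matrix.trace_mul_cycle,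
    ← Matrix.SpecialLinearGroup.coe_mul, mul_inv_cancel, Matrix.SpecialLinearGroup.coe_one,
    Matrix.one_mul, hx]

theorem isUnipR_conj' {x : SL(2, R)} (hx : IsUnipR x) (t : SL(2, R)) : IsUnipR (t * x * t⁻¹) := by
  have := isUnipR_conj hx t⁻¹
  rwa [inv_inv] at this

/-- For unipotent `x`: `x ^ n = 1 + n (x - 1)`. -/
theorem coe_pow_of_isUnipR {x : SL(2, R)} (hx : IsUnipR x) (n : ℕ) :
    ((x ^ n : SL(2, R)) : Matrix (Fin 2) (Fin 2) R) =
      1 + (n : R) • ((x : Matrix (Fin 2) (Fin 2) R) - 1) := by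
  have hsq : ((x : Matrix (Fin 2) (Fin 2) R) - 1) ^ 2 = 0 :=
    Fermat.Agent.LIhU.sq_of_trace_eq_two x ((isUnipR_iff x).mp hx)
  induction n with
  | zero => simp
  | succ n ih =>
    rw [pow_succ, Matrix.SpecialLinearGroup.coe_mul, ih]
    have h1 : (x : Matrix (Fin 2) (Fin 2) R) = 1 + ((x : Matrix (Fin 2) (Fin 2) R) - 1) := by
      abel
    obtain ⟨N, hN⟩ : ∃ N, N = (x : Matrix (Fin 2) (Fin 2) R) - 1 := ⟨_, rfl⟩
    rw [← hN] at hsq h1 ⊢
    have hNN : N * N = 0 := by rw [← sq]; exact hsq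
    conv_lhs => rw [h1]
    rw [Matrix.add_mul, Matrix.mul_add, Matrix.mul_add, Matrix.one_mul, Matrix.mul_one,
      Matrix.one_mul, Matrix.smul_mul, hNN, smul_zero, add_zero]
    push_cast
    rw [add_smul, one_smul]
    abel

theorem isUnipR_pow {x : SL(2, R)} (hx : IsUnipR x) (n : ℕ) : IsUnipR (x ^ n) := by
  have h := coe_pow_of_isUnipR hx n
  rw [IsUnipR] at hx ⊢
  rw [h, Matrix.trace_add, Matrix.trace_smul, Matrix.trace_sub, hx, Matrix.trace_one]
  simp

theorem isUnipR_map {S : Type*} [CommRing S] (f : R →+* S) {x : SL(2, R)} (hx : IsUnipR x) :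
    IsUnipR (Matrix.SpecialLinearGroup.map f x) := by
  rw [isUnipR_iff] at hx ⊢
  simp only [Matrix.SpecialLinearGroup.map_apply_coe, RingHom.mapMatrix_apply, Matrix.map_apply]
  rw [← map_add, hx]
  exact map_ofNat f 2

end General

variable {q : ℕ}

theorem isUnip_iff_isUnipR (x : Gq q) : IsUnip x ↔ IsUnipR x := Iff.rfl

theorem isUnip_upper (t : Zq q) : IsUnip (upper q t) := by
  rw [isUnip_iff_isUnipR, isUnipR_iff]
  simp [upper]
  norm_num

theorem upper_mem_congr (M : ℕ) (t : Zq q) : upper q ((M : Zq q) * t) ∈ congr q M := by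
  rw [mem_congr]
  intro i j
  fin_cases i <;> fin_cases j <;> simp [upper]

/-- A character of `G(M)` killing the unipotent elements kills `E(M)`. -/
theorem kills_elem_of_killsUnip {p M : ℕ} (c : Additive (congr q M) →+ ZMod p)
    (hc : KillsUnip (congr q M) c) (x : congr q M) (hx : (x : Gq q) ∈ elem q M) :
    c (Additive.ofMul x) = 0 := by
  -- the set of `g` with: `g ∈ G(M)` and `c g = 0`
  have key : ∀ g : Gq q, g ∈ elem q M → ∃ hg : g ∈ congr q M, c (Additive.ofMul ⟨g, hg⟩) = 0 := by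
    intro g hg
    unfold elem Subgroup.normalClosure at hg
    induction hg using Subgroup.closure_induction with
    | mem g hg =>
      obtain ⟨u, ⟨t, rfl⟩, hconj⟩ := Group.mem_conjugatesOfSet_iff.mp hg
      obtain ⟨k, rfl⟩ := isConj_iff.mp hconj
      have hmem : k * upper q ((M : Zq q) * t) * k⁻¹ ∈ congr q M :=
        (congr_normal q M).conj_mem _ (upper_mem_congr M t) k
      refine ⟨hmem, hc ⟨_, hmem⟩ ?_⟩
      exact isUnipR_conj' (isUnip_upper _) k
    | one => exact ⟨Subgroup.one_mem _, map_zero c⟩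
    | mul g h _ _ ihg ihh =>
      obtain ⟨hg, hg0⟩ := ihg
      obtain ⟨hh, hh0⟩ := ihh
      refine ⟨Subgroup.mul_mem _ hg hh, ?_⟩
      have : (⟨g * h, Subgroup.mul_mem _ hg hh⟩ : congr q M) = ⟨g, hg⟩ * ⟨h, hh⟩ := rfl
      rw [this, ofMul_mul, map_add, hg0, hh0, add_zero]
    | inv g _ ihg =>
      obtain ⟨hg, hg0⟩ := ihg
      refine ⟨Subgroup.inv_mem _ hg, ?_⟩
      have : (⟨g⁻¹, Subgroup.inv_mem _ hg⟩ : congr q M) = ⟨g, hg⟩⁻¹ := rfl
      rw [this, ofMul_inv, map_neg, hg0, neg_zero]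
  obtain ⟨_, h0⟩ := key x hx
  exact h0

/-- A character of `G(M)` killing `E(M)` kills the unipotent elements (Lemma U). -/
theorem killsUnip_of_kills_elem {p M : ℕ} (c : Additive (congr q M) →+ ZMod p)
    (hc : ∀ x : congr q M, (x : Gq q) ∈ elem q M → c (Additive.ofMul x) = 0) :
    KillsUnip (congr q M) c := by
  intro x hx
  exact hc x (Fermat.Agent.LIhU.mem_elem_of_trace_eq_two q M x x.2 ((isUnipR_iff _).mp hx))

end Fermat.Agent.LIhD
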